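import Fermat.Agent.CorvajaZannier.Relation
import Mathlib.FieldTheory.Galois.Basic

/-!
# The conjugates of a number with multiples of powers near integers

In a Galois field with a given embedding: if `q c b ^ k` is close to the integer `p` for infinitely
many `k` and larger than one, then infinitely often `p = q ∑ τ (c) τ (b) ^ k` over the conjugates
and all the terms but `q c b ^ k` are less than one. With `q = 1`: `b` is integral and its other
conjugates lie inside the unit disc.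
-/

set_option autoImplicit false
set_option linter.style.haveILetI false

noncomputable section

namespace FA.CorvajaZannier

open Finset NumberField IsDedekindDomain Filter Topology FA.Subspace

variable {K : Type*} [Field K] [NumberField K]

/-- Every embedding is the given one after an automorphism. -/
theorem exists_aut_of_embedding [IsGalois ℚ K] (φ₀ φ : K →+* ℂ) :
    ∃ g : K ≃ₐ[ℚ] K, ∀ x, φ x = φ₀ (g x) := by
  letI : Algebra K ℂ := φ₀.toAlgebra
  haveI : IsScalarTower ℚ K ℂ := IsScalarTower.of_algebraMap_eq fun q => (map_ratCast φ₀ q).symm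
  refine ⟨Normal.algHomEquivAut ℚ ℂ K φ.toRatAlgHom, fun x => ?_⟩
  have h := AlgHom.congr_fun ((Normal.algHomEquivAut ℚ ℂ K).symm_apply_apply φ.toRatAlgHom) x
  exact h.symm

open scoped Classical in
/-- The conjugates of `b`. -/
def conjugates (b : K) : Finset K := univ.image fun σ : K ≃ₐ[ℚ] K => σ b

theorem mem_conjugates {b x : K} : x ∈ conjugates b ↔ ∃ σ : K ≃ₐ[ℚ] K, σ b = x := by
  classical
  simp [conjugates]

theorem self_mem_conjugates (b : K) : b ∈ conjugates b := mem_conjugates.2 ⟨1, rfl⟩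

theorem apply_mem_conjugates {b x : K} (g : K ≃ₐ[ℚ] K) (hx : x ∈ conjugates b) :
    g x ∈ conjugates b := by
  obtain ⟨σ, rfl⟩ := mem_conjugates.1 hx
  exact mem_conjugates.2 ⟨g * σ, rfl⟩

theorem nondeg_conjugates {b : K} (hb0 : b ≠ 0)
    (hnd : ∀ σ : K ≃ₐ[ℚ] K, ∀ m : ℕ, 0 < m → σ b ^ m = b ^ m → σ b = b) :
    Nondeg (conjugates b) := by
  refine ⟨fun h => ?_, fun x hx y hy hxy m hm h => hxy ?_⟩
  · obtain ⟨σ, hσ⟩ := mem_conjugates.1 h
    exact hb0 ((map_eq_zero σ).1 hσ)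
  · obtain ⟨σ, rfl⟩ := mem_conjugates.1 hx
    obtain ⟨τ, rfl⟩ := mem_conjugates.1 hy
    have h1 := congrArg τ.symm h
    simp only [map_pow, AlgEquiv.symm_apply_apply] at h1
    have h2 := congrArg τ (hnd (σ.trans τ.symm) m hm h1)
    simpa using h2

/-- **The approximations are traces.** -/
theorem exists_trace [IsGalois ℚ K] (φ₀ : K →+* ℂ) {b c : K} (hb0 : b ≠ 0) (hc : c ≠ 0)
    (hnd : ∀ σ : K ≃ₐ[ℚ] K, ∀ m : ℕ, 0 < m → σ b ^ m = b ^ m → σ b = b)
    {l ε : ℝ} (hl0 : 0 < l) (hl : l < 1) (hε : 0 < ε) (Q : ℕ → ℕ → ℤ → Prop)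
    (hinf : {k : ℕ | ∃ q p, Approx (conjugates b) φ₀ c b l ε k q p ∧
      1 < ‖(q : ℂ) * (φ₀ c * φ₀ b ^ k)‖ ∧ Q k q p}.Infinite) :
    ∃ a : K → K, (∀ σ : K ≃ₐ[ℚ] K, a (σ b) = σ c) ∧
      {k : ℕ | ∃ q p, Approx (conjugates b) φ₀ c b l ε k q p ∧ Q k q p ∧
        (p : K) = (q : K) * ∑ x ∈ conjugates b, a x * x ^ k ∧
        ∀ x ∈ conjugates b, x ≠ b →
          ‖φ₀ x‖ < 1 ∧ ‖(q : ℂ) * φ₀ (a x * x ^ k)‖ < 1}.Infinite := by
  classical
  set B := conjugates b
  have hB : Nondeg B := nondeg_conjugates hb0 hnd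
  have hbB : b ∈ B := self_mem_conjugates b
  obtain ⟨a, ha⟩ := exists_relation hB φ₀ (exists_aut_of_embedding φ₀)
    (fun g x hx => apply_mem_conjugates g hx) hbB c hl0 hl hε
    (fun k q p => 1 < ‖(q : ℂ) * (φ₀ c * φ₀ b ^ k)‖ ∧ Q k q p) hinf
  -- equivariance
  have hequiv : ∀ (τ : K ≃ₐ[ℚ] K), ∀ x ∈ B, a (τ x) = τ (a x) := fun τ x hx => by
    have h := coeff_eq_zero hB (fun y => a y - τ (a (τ.symm y))) (ha.mono ?_)
      (apply_mem_conjugates τ hx)
    · simpa [sub_eq_zero] using h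
    rintro k ⟨q, p, hqp, -, hp⟩
    have h1 := congrArg τ hp
    rw [map_intCast, map_mul, map_natCast, map_sum] at h1
    have h2 : ∑ y ∈ B, τ (a (τ.symm y)) * y ^ k = ∑ y ∈ B, τ (a y * y ^ k) :=
      sum_nbij' τ.symm τ (fun y hy => apply_mem_conjugates τ.symm hy)
        (fun y hy => apply_mem_conjugates τ hy)
        (fun y _ => τ.apply_symm_apply y) (fun y _ => τ.symm_apply_apply y)
        fun y _ => by simp
    show ∑ y ∈ B, (a y - τ (a (τ.symm y))) * y ^ k = 0
    rw [sum_congr rfl fun y _ => sub_mul (a y) _ (y ^ k), sum_sub_distrib, h2, sub_eq_zero]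
    exact mul_left_cancel₀ (Nat.cast_ne_zero.2 hqp.1.ne') (hp.symm.trans h1)
  obtain ⟨S₁, hS₁⟩ := eventually_sum_lower hB fun x => a x - if x = b then c else 0
  -- the terms left after the approximation are small
  set η := -Real.log l / 2
  have hlog : Real.log l < 0 := Real.log_neg hl0 hl
  have hη : 0 < η := div_pos (neg_pos.2 hlog) two_pos
  have hle : l * Real.exp η < 1 := by
    rw [← Real.exp_log hl0, ← Real.exp_add, Real.exp_lt_one_iff]
    simp only [η]
    linarith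
  have hsm : ∀ x ∈ B, a x - (if x = b then c else 0) ≠ 0 → ∀ᶠ k : ℕ in atTop, ∀ q p,
      Approx B φ₀ c b l ε k q p → (p : K) = (q : K) * ∑ y ∈ B, a y * y ^ k →
        (q : ℝ) * ‖φ₀ x‖ ^ k ≤ (l * Real.exp η) ^ k := by
    intro x hx hax
    filter_upwards [hS₁ S₁ subset_rfl x hx hax (.inl φ₀) η hη] with k hk q p hqp hp
    rw [placeAbv_inl, placeAbv_inl] at hk
    have h1 := mul_le_mul_of_nonneg_left hk (Nat.cast_nonneg (α := ℝ) q)
    rw [← Complex.norm_natCast q, ← norm_mul (q : ℂ) (φ₀ _), ← map_natCast φ₀ q, ← map_mul,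
      show (q : K) * ∑ y ∈ B, (a y - if y = b then c else 0) * y ^ k =
        (p : K) - (q : K) * (c * b ^ k) by
      rw [hp, ← mul_sub]
      simp only [sub_mul, sum_sub_distrib, ite_mul, zero_mul]
      rw [sum_ite_eq', if_pos hbB], map_sub, map_intCast, map_mul, map_natCast, map_mul, map_pow,
      norm_sub_rev, Complex.norm_natCast] at h1
    have h2 : ‖(q : ℂ) * (φ₀ c * φ₀ b ^ k) - p‖ ≤ l ^ k :=
      hqp.2.le.trans (mul_le_of_le_one_right (by positivity)
        (Real.rpow_le_one_of_one_le_of_nonpos (Nat.one_le_cast.2 hqp.1) (by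
          have : (0 : ℝ) ≤ B.card := Nat.cast_nonneg _
          linarith)))
    rw [mul_pow, ← Real.exp_nat_mul]
    rw [← mul_assoc] at h1
    refine le_of_mul_le_mul_right ((h1.trans h2).trans_eq ?_) (Real.exp_pos (-(η * k)))
    rw [mul_assoc, ← Real.exp_add, show (k : ℝ) * η + -(η * k) = 0 by ring, Real.exp_zero, mul_one]
  have hgeo : ∀ C : ℝ, ∀ᶠ k : ℕ in atTop, C * (l * Real.exp η) ^ k < 1 := fun C => by
    have ht := (tendsto_pow_atTop_nhds_zero_of_lt_one (by positivity) hle).const_mul C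
    rw [mul_zero] at ht
    exact ht.eventually_lt_const one_pos
  have hab : a b = c := by
    by_contra h
    obtain ⟨k, ⟨hk, hk1⟩, q, p, hqp, ⟨hbig, -⟩, hp⟩ :=
      (((hsm b hbB (by rw [if_pos rfl]; exact sub_ne_zero.2 h)).and (hgeo ‖φ₀ c‖)).and_frequently
        (Nat.frequently_atTop_iff_infinite.2 ha)).exists
    rw [norm_mul, norm_mul, norm_pow, Complex.norm_natCast, mul_left_comm] at hbig
    exact ((mul_le_mul_of_nonneg_left (hk q p hqp hp) (norm_nonneg _)).trans_lt hk1).not_gt hbig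
  have hval : ∀ σ : K ≃ₐ[ℚ] K, a (σ b) = σ c := fun σ => by rw [hequiv σ b hbB, hab]
  refine ⟨a, hval, Nat.frequently_atTop_iff_infinite.1 ?_⟩
  have hev : ∀ᶠ k : ℕ in atTop, ∀ x ∈ B.erase b, ∀ q p, Approx B φ₀ c b l ε k q p →
      (p : K) = (q : K) * ∑ y ∈ B, a y * y ^ k →
      ‖φ₀ x‖ < 1 ∧ ‖(q : ℂ) * φ₀ (a x * x ^ k)‖ < 1 := by
    refine (eventually_all_finset _).2 fun x hx => ?_
    obtain ⟨hxb, hxB⟩ := mem_erase.1 hx
    obtain ⟨σ, hσ⟩ := mem_conjugates.1 hxB
    have hax : a x ≠ 0 := by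
      rw [← hσ, hval]
      exact (map_ne_zero σ).2 hc
    filter_upwards [hsm x hxB (by rw [if_neg hxb, sub_zero]; exact hax), hgeo ‖φ₀ (a x)‖,
      hgeo 1] with k hk h1 h2 q p hqp hp
    refine ⟨?_, ?_⟩
    · by_contra! hge
      have h3 := (mul_le_mul_of_nonneg_left (one_le_pow₀ (n := k) hge)
        (Nat.cast_nonneg (α := ℝ) q)).trans (hk q p hqp hp)
      rw [mul_one] at h3
      linarith [Nat.one_le_cast (α := ℝ) |>.2 hqp.1]
    · rw [map_mul, map_pow, norm_mul, norm_mul, norm_pow, Complex.norm_natCast, mul_left_comm]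
      exact (mul_le_mul_of_nonneg_left (hk q p hqp hp) (norm_nonneg _)).trans_lt h1
  refine (hev.and_frequently (Nat.frequently_atTop_iff_infinite.2 ha)).mono ?_
  rintro k ⟨h, q, p, hqp, ⟨-, hQ⟩, hp⟩
  exact ⟨q, p, hqp, hQ, hp, fun x hx hxb => h x (mem_erase.2 ⟨hxb, hx⟩) q p hqp hp⟩

/-- **The theorem of Corvaja and Zannier on powers** in a Galois field. -/
theorem isIntegral_and_conjugates [IsGalois ℚ K] (φ₀ : K →+* ℂ) {b c : K} (hb : 1 < ‖φ₀ b‖)
    (hc : c ≠ 0) (hnd : ∀ σ : K ≃ₐ[ℚ] K, ∀ m : ℕ, 0 < m → σ b ^ m = b ^ m → σ b = b)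
    {l : ℝ} (hl0 : 0 < l) (hl : l < 1)
    (hinf : {k : ℕ | ∃ p : ℤ, ‖φ₀ c * φ₀ b ^ k - p‖ < l ^ k}.Infinite) :
    IsIntegral ℤ b ∧ ∀ σ : K ≃ₐ[ℚ] K, σ b ≠ b → ‖φ₀ (σ b)‖ < 1 := by
  classical
  have hb0 : b ≠ 0 := fun h => by rw [h, map_zero, norm_zero] at hb; exact absurd hb (by norm_num)
  have hbig : ∀ᶠ k : ℕ in atTop, 1 < ‖φ₀ c * φ₀ b ^ k‖ := by
    simp only [norm_mul, norm_pow]
    exact ((tendsto_pow_atTop_atTop_of_one_lt hb).const_mul_atTop
      (norm_pos_iff.2 ((map_ne_zero φ₀).2 hc))).eventually_gt_atTop 1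
  obtain ⟨a, hval, ha⟩ := exists_trace φ₀ hb0 hc hnd hl0 hl one_pos (fun _ q _ => q = 1)
    (Nat.frequently_atTop_iff_infinite.1 ((hbig.and_frequently
      (Nat.frequently_atTop_iff_infinite.2 hinf)).mono fun k ⟨hk, p, hp⟩ =>
        ⟨1, p, ⟨one_pos, by simpa using hp⟩, by simpa using hk, rfl⟩))
  refine ⟨?_, fun σ hσ => ?_⟩
  · -- integrality
    obtain ⟨S₂, hS₂⟩ := eventually_sum_lower (nondeg_conjugates hb0 hnd) a
    have hle : ∀ v : HeightOneSpectrum (𝓞 K), HeightOneSpectrum.adicAbv K v b ≤ 1 := by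
      intro v
      by_contra! hgt
      set A := HeightOneSpectrum.adicAbv K v b
      set ε := Real.log A / 2
      have hlog : 0 < Real.log A := Real.log_pos hgt
      have hε : 0 < ε := half_pos hlog
      obtain ⟨k, ⟨hk, hk1⟩, q, p, -, hq, hsum, -⟩ := (((hS₂ (insert v S₂) (subset_insert _ _) b
        (self_mem_conjugates b) (by simpa using (hval 1).trans_ne hc)
        (.inr ⟨v, mem_insert_self _ _⟩) ε hε).and (eventually_ge_atTop 1)).and_frequently
          (Nat.frequently_atTop_iff_infinite.2 ha)).exists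
      subst hq
      rw [Nat.cast_one, one_mul] at hsum
      rw [← hsum, placeAbv_inr, placeAbv_inr, ← map_intCast (algebraMap (𝓞 K) K)] at hk
      have h1 : A ^ k * Real.exp (-(ε * k)) ≤ 1 := hk.trans (by
        rw [← FinitePlace.norm_embedding]
        exact FinitePlace.norm_le_one K v _)
      rw [← Real.exp_log (zero_lt_one.trans hgt), ← Real.exp_nat_mul, ← Real.exp_add,
        Real.exp_le_one_iff] at h1
      simp only [ε] at h1
      nlinarith [mul_pos hlog (show (0 : ℝ) < k by exact_mod_cast hk1)]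
    obtain ⟨y, hy⟩ := exists_coe_eq_of_adicAbv_le_one hle
    rw [← hy]
    exact y.isIntegral_coe
  · obtain ⟨k, q, p, -, -, -, h⟩ := ha.nonempty
    exact (h _ (mem_conjugates.2 ⟨σ, rfl⟩) hσ).1

end FA.CorvajaZannier

end
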