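import Fermat.Agent.Subspace.ExponentialGrowth

/-!
# Powers near integers in a Galois field

If `c * b ^ k` is within `l ^ k` of an integer for infinitely many `k`, where no quotient of two
conjugates of `b` is a root of unity other than one, the subspace theorem writes these integers as
`∑ a x * x ^ k` over the conjugates `x` of `b`, and the growth of such sums at each place leaves
only: `b` integral and all other conjugates inside the unit disc (Corvaja and Zannier).
-/

set_option autoImplicit false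
set_option linter.style.haveILetI false

noncomputable section

namespace FA.CorvajaZannier

open Finset NumberField IsDedekindDomain Filter Topology FA.Subspace

variable {K : Type*} [Field K] [NumberField K] {S : Finset (HeightOneSpectrum (𝓞 K))}

/-- Nonzero numbers of which no quotient of two different ones is a root of unity. -/
def Nondeg (B : Finset K) : Prop :=
  (0 : K) ∉ B ∧ ∀ x ∈ B, ∀ y ∈ B, x ≠ y → ∀ m : ℕ, 0 < m → x ^ m ≠ y ^ m

/-- A natural number making given numbers integral. -/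
theorem exists_denominator (T : Finset K) :
    ∃ D : ℕ, D ≠ 0 ∧ ∀ x ∈ T, ∃ y : 𝓞 K, (y : K) = D * x := by
  classical
  have hex : ∀ x : K, ∃ n : ℕ, n ≠ 0 ∧ IsIntegral ℤ ((n : K) * x) := fun x => by
    obtain ⟨n, hn, hy⟩ := ((IsFractionRing.isAlgebraic_iff ℤ ℚ K).2
      (Algebra.IsAlgebraic.isAlgebraic (R := ℚ) x)).exists_integral_multiple
    rw [zsmul_eq_mul] at hy
    refine ⟨n.natAbs, Int.natAbs_ne_zero.2 hn, ?_⟩
    rcases Int.natAbs_eq n with h | h <;> rw [h] at hy
    · rwa [Int.cast_natCast] at hy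
    · simpa [-Nat.cast_natAbs] using hy.neg
  choose n hn hi using hex
  refine ⟨∏ x ∈ T, n x, prod_ne_zero_iff.2 fun x _ => hn x, fun x hx => ?_⟩
  obtain ⟨d, hd⟩ := dvd_prod_of_mem n hx
  exact ⟨(d : 𝓞 K) * ⟨_, hi x⟩, by rw [hd]; push_cast; simp; ring⟩

/-- The values at the places of a natural number times a number. -/
theorem placeAbv_pos (w : (K →+* ℂ) ⊕ S) {x : K} (hx : x ≠ 0) : 0 < placeAbv S w x :=
  AbsoluteValue.pos _ hx

/-- A sum of powers with constant coefficients is not small at any place. -/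
theorem eventually_sum_lower {B : Finset K} (hB : Nondeg B) (a : K → K) :
    ∃ S₀ : Finset (HeightOneSpectrum (𝓞 K)), ∀ (S : Finset (HeightOneSpectrum (𝓞 K))), S₀ ⊆ S →
      ∀ x ∈ B, a x ≠ 0 → ∀ w : (K →+* ℂ) ⊕ S, ∀ ε : ℝ, 0 < ε → ∀ᶠ k : ℕ in atTop,
        placeAbv S w x ^ k * Real.exp (-(ε * k)) ≤ placeAbv S w (∑ y ∈ B, a y * y ^ k) := by
  classical
  obtain ⟨D, hD0, hD⟩ := exists_denominator (B ∪ B.image a)
  have hDK : (D : K) ≠ 0 := Nat.cast_ne_zero.2 hD0
  choose! z hz using hD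
  have hB0 : ∀ y ∈ B, y ≠ 0 := fun y hy h => hB.1 (h ▸ hy)
  set α : B → 𝓞 K := fun y => z y.1
  have hα : ∀ y : B, (α y : K) = D * y.1 := fun y => hz _ (mem_union_left _ y.2)
  have hα0 : ∀ y, α y ≠ 0 := fun y h => mul_ne_zero hDK (hB0 _ y.2) (by rw [← hα y, h]; simp)
  obtain ⟨S₀, hS₀⟩ := exists_primes_unit α hα0
  refine ⟨S₀, fun S hS x hx hax w ε hε => ?_⟩
  set J := univ.filter fun y : B => a y.1 ≠ 0
  have hxJ : (⟨x, hx⟩ : B) ∈ J := mem_filter.2 ⟨mem_univ _, hax⟩
  have hnd : ∀ i j : B, i ≠ j → ∀ m, 0 < m → α i ^ m ≠ α j ^ m := fun i j hij m hm h => by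
    have h1 := congrArg (fun t : 𝓞 K => (t : K)) h
    simp only [map_pow, hα, mul_pow] at h1
    exact hB.2 _ i.2 _ j.2 (fun e => hij (Subtype.ext e)) m hm
      (mul_left_cancel₀ (pow_ne_zero m hDK) h1)
  obtain ⟨η, hη, hev⟩ := ((eventually_mem_nhdsWithin).and (eventually_lower_bound hα0
    (fun i v hv => hS₀ i v fun h => hv (hS h)) hnd J ⟨_, hxJ⟩ w (ε / 2) (half_pos hε))).exists
  set c : B → 𝓞 K := fun y => z (a y.1)
  have hc : ∀ y : B, (c y : K) = D * a y.1 := fun y =>
    hz _ (mem_union_right _ (mem_image_of_mem a y.2))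
  have hsmall : ∀ᶠ k : ℕ in atTop, ∀ y : B, ∀ φ : K →+* ℂ,
      ‖φ (c y : K)‖ ≤ Real.exp (η * k) :=
    eventually_all.2 fun y => eventually_all.2 fun φ => eventually_le_exp _ hη
  filter_upwards [hev, hsmall, eventually_le_exp (placeAbv S w (D : K)) (half_pos hε)]
    with k hk hsm hDk
  have h := hk c (fun y hy => ⟨fun h0 => mul_ne_zero hDK (mem_filter.1 hy).2
    (by rw [← hc y, h0]; simp), hsm y⟩) ⟨x, hx⟩ hxJ
  have hsum : ∑ y ∈ J, (c y : K) * (α y : K) ^ k =
      (D : K) ^ k * ((D : K) * ∑ y ∈ B, a y * y ^ k) := by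
    rw [sum_filter, ← sum_coe_sort B fun y => a y * y ^ k, mul_sum, mul_sum]
    refine sum_congr rfl fun y _ => ?_
    split_ifs with h'
    · rw [hc, hα, mul_pow]
      ring
    · rw [not_not.1 h', zero_mul, mul_zero, mul_zero]
  rw [hsum, hα, map_mul, map_mul, map_mul, map_pow, mul_pow, mul_assoc] at h
  refine le_of_mul_le_mul_left ?_ (Real.exp_pos (ε / 2 * k))
  refine le_trans (le_of_eq ?_) ((le_of_mul_le_mul_left h
    (pow_pos (placeAbv_pos w hDK) k)).trans (mul_le_mul_of_nonneg_right hDk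
      (AbsoluteValue.nonneg _ _)))
  rw [mul_left_comm, ← Real.exp_add]
  ring_nf

/-- A sum of powers with constant coefficients vanishing infinitely often is trivial. -/
theorem coeff_eq_zero {B : Finset K} (hB : Nondeg B) (a : K → K)
    (hinf : {k : ℕ | ∑ y ∈ B, a y * y ^ k = 0}.Infinite) {x : K} (hx : x ∈ B) : a x = 0 := by
  by_contra hax
  obtain ⟨φ⟩ : Nonempty (K →+* ℂ) := inferInstance
  obtain ⟨S₀, hS₀⟩ := eventually_sum_lower hB a
  obtain ⟨k, hk, h0⟩ := ((hS₀ S₀ subset_rfl x hx hax (.inl φ) 1 one_pos).and_frequently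
    (Nat.frequently_atTop_iff_infinite.2 hinf)).exists
  rw [h0, map_zero] at hk
  exact (mul_pos (pow_pos (placeAbv_pos (S := S₀) (.inl φ) fun h => hB.1 (h ▸ hx)) k)
    (Real.exp_pos _)).not_ge hk

end FA.CorvajaZannier

end
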