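import Fermat.Agent.CorvajaZannier.Conjugates
import Fermat.Agent.PisotCriterion.Converse
import Mathlib.FieldTheory.IsAlgClosed.Basic
import Mathlib.Analysis.Complex.Polynomial.Basic

/-!
# Mahler's problem on the powers of an algebraic number

If `α > 1` is algebraic and `λ α ^ n` is geometrically near the integers for infinitely many `n`
then a power of `α` is a Pisot number (Corvaja and Zannier); powers of Pisot numbers are.
-/

set_option autoImplicit false
set_option linter.style.haveILetI false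

noncomputable section

namespace FA.CorvajaZannier

open Finset Polynomial NumberField FA.PisotCriterion Filter

/-- A Galois field in `ℂ` with `α` and `λ`, and a power of `α` with nondegenerate conjugates. -/
theorem exists_model {α lam : ℝ} (halg : IsAlgebraic ℚ α) (hlam : IsAlgebraic ℚ lam)
    (hα0 : α ≠ 0) :
    ∃ (K : IntermediateField ℚ ℂ) (_ : NumberField K) (_ : IsGalois ℚ K) (φ₀ : K →+* ℂ) (a c : K)
      (N : ℕ), 0 < N ∧ φ₀ a = (α : ℂ) ∧ φ₀ c = (lam : ℂ) ∧
      ∀ σ : K ≃ₐ[ℚ] K, ∀ m : ℕ, 0 < m → σ (a ^ N) ^ m = (a ^ N) ^ m → σ (a ^ N) = a ^ N := by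
  classical
  set P : ℚ[X] := minpoly ℚ (α : ℂ) * minpoly ℚ (lam : ℂ)
  have hαC : IsIntegral ℚ (α : ℂ) := halg.isIntegral.map (Complex.ofRealAm.restrictScalars ℚ)
  have hlamC : IsIntegral ℚ (lam : ℂ) := hlam.isIntegral.map (Complex.ofRealAm.restrictScalars ℚ)
  have hP : P ≠ 0 := mul_ne_zero (minpoly.ne_zero hαC) (minpoly.ne_zero hlamC)
  set K := IntermediateField.adjoin ℚ (P.rootSet ℂ)
  haveI : Polynomial.IsSplittingField ℚ K P :=
    IntermediateField.adjoin_rootSet_isSplittingField (IsAlgClosed.splits _)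
  haveI : Normal ℚ K := Normal.of_isSplittingField P
  haveI : IsGalois ℚ K := ⟨⟩
  haveI : FiniteDimensional ℚ K := Polynomial.IsSplittingField.finiteDimensional K P
  haveI : NumberField K := { to_charZero := inferInstance, to_finiteDimensional := inferInstance }
  have hmem : ∀ x : ℂ, aeval x P = 0 → x ∈ K := fun x hx =>
    IntermediateField.subset_adjoin ℚ _ (mem_rootSet.2 ⟨hP, hx⟩)
  set a : K := ⟨(α : ℂ), hmem _ (by rw [map_mul, minpoly.aeval, zero_mul])⟩
  set c₀ : K := ⟨(lam : ℂ), hmem _ (by rw [map_mul, minpoly.aeval, mul_zero])⟩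
  have ha0 : a ≠ 0 := fun h => hα0 (by simpa [a] using congrArg (algebraMap K ℂ) h)
  set R : Finset K := univ.image fun σ : K ≃ₐ[ℚ] K => σ a / a
  set N := ∏ u ∈ R, if IsOfFinOrder u then orderOf u else 1
  have hN : 0 < N := prod_pos fun u _ => by
    split_ifs with h
    exacts [h.orderOf_pos, one_pos]
  refine ⟨K, inferInstance, inferInstance, algebraMap K ℂ, a, c₀, N, hN, rfl, rfl,
    fun σ m hm h => ?_⟩
  have h1 : (σ a / a) ^ (N * m) = 1 := by
    rw [div_pow, div_eq_one_iff_eq (pow_ne_zero _ ha0), pow_mul, pow_mul, ← map_pow σ a N]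
    exact h
  have hfin : IsOfFinOrder (σ a / a) :=
    isOfFinOrder_iff_pow_eq_one.2 ⟨_, Nat.mul_pos hN hm, h1⟩
  have hd : orderOf (σ a / a) ∣ N := by
    have h2 := dvd_prod_of_mem (fun u => if IsOfFinOrder u then orderOf u else 1)
      (mem_image_of_mem (fun σ : K ≃ₐ[ℚ] K => σ a / a) (mem_univ σ))
    rwa [if_pos hfin] at h2
  have h3 := orderOf_dvd_iff_pow_eq_one.1 hd
  rwa [div_pow, div_eq_one_iff_eq (pow_ne_zero _ ha0), ← map_pow] at h3

/-- An infinite set of exponents meets a residue class in an infinite set. -/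
theorem exists_residue {N : ℕ} (hN : 0 < N) {s : Set ℕ} (hs : s.Infinite) :
    ∃ r < N, {k : ℕ | N * k + r ∈ s}.Infinite := by
  by_contra! hcon
  refine hs (((range N).finite_toSet.biUnion fun r hr =>
    ((hcon r (mem_range.1 hr)).image fun k => N * k + r)).subset fun n hn => ?_)
  refine Set.mem_biUnion (mem_range.2 (Nat.mod_lt n hN)) ⟨n / N, ?_, Nat.div_add_mod n N⟩
  rw [Set.mem_ofPred_eq, Nat.div_add_mod]
  exact hn

/-- **Corvaja and Zannier**: only powers of Pisot numbers are geometrically near the integers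
infinitely often. -/
theorem exists_pow_isPisot {α lam : ℝ} (hα : 1 < α) (halg : IsAlgebraic ℚ α) (hlam0 : lam ≠ 0)
    (hlam : IsAlgebraic ℚ lam) {l : ℝ} (hl0 : 0 < l) (hl : l < 1)
    (hinf : {n : ℕ | |lam * α ^ n - round (lam * α ^ n)| < l ^ n}.Infinite) :
    ∃ h : ℕ, 0 < h ∧ IsPisot (α ^ h) := by
  classical
  obtain ⟨K, _, _, φ₀, a, c₀, N, hN, hφa, hφc, hnd⟩ :=
    exists_model halg hlam (zero_lt_one.trans hα).ne'
  have ha0 : a ≠ 0 := fun h => by
    rw [h, map_zero, eq_comm, Complex.ofReal_eq_zero] at hφa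
    linarith
  have hc0 : c₀ ≠ 0 := fun h => by
    rw [h, map_zero, eq_comm, Complex.ofReal_eq_zero] at hφc
    exact hlam0 hφc
  obtain ⟨r, hr, hrinf⟩ := exists_residue hN hinf
  set b := a ^ N
  have hb : 1 < ‖φ₀ b‖ := by
    rw [map_pow, hφa, ← Complex.ofReal_pow, Complex.norm_real, Real.norm_eq_abs]
    exact (one_lt_pow₀ hα hN.ne').trans_le (le_abs_self _)
  obtain ⟨hint, hconj⟩ := isIntegral_and_conjugates φ₀ hb (mul_ne_zero hc0 (pow_ne_zero r ha0))
    hnd hl0 hl (hrinf.mono fun k hk => ⟨round (lam * α ^ (N * k + r)), by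
      rw [map_mul, map_pow, map_pow, hφa, hφc,
        show (lam : ℂ) * (α : ℂ) ^ r * (((α : ℂ) ^ N) ^ k) =
          ((lam * α ^ (N * k + r) : ℝ) : ℂ) by push_cast; ring,
        ← Complex.ofReal_intCast, ← Complex.ofReal_sub, Complex.norm_real, Real.norm_eq_abs]
      exact hk.trans_le (pow_le_pow_of_le_one hl0.le hl.le
        ((Nat.le_mul_of_pos_left k hN).trans (Nat.le_add_right _ _)))⟩)
  have hφb : φ₀ b = ((α ^ N : ℝ) : ℂ) := by rw [map_pow, hφa]; push_cast; rfl
  have hintR : IsIntegral ℤ (α ^ N) := by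
    refine (isIntegral_algHom_iff Complex.ofRealHom.toIntAlgHom Complex.ofReal_injective).1 ?_
    show IsIntegral ℤ ((α ^ N : ℝ) : ℂ)
    rw [← hφb]
    exact hint.map φ₀.toIntAlgHom
  refine ⟨N, hN, one_lt_pow₀ hα hN.ne', hintR, fun z hz hne => ?_⟩
  have hmin : minpoly ℤ (α ^ N) = minpoly ℤ b := by
    rw [← minpoly.algHom_eq φ₀.toIntAlgHom φ₀.injective b,
      ← minpoly.algHom_eq Complex.ofRealHom.toIntAlgHom Complex.ofReal_injective (α ^ N)]
    exact congrArg (minpoly ℤ) hφb.symm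
  have hz' : z ∈ (minpoly ℚ b).rootSet ℂ := mem_rootSet.2 ⟨minpoly.ne_zero hint.tower_top, by
    rw [minpoly.isIntegrallyClosed_eq_field_fractions' ℚ hint, aeval_map_algebraMap, ← hmin]
    exact hz⟩
  rw [← Algebra.IsAlgebraic.range_eval_eq_rootSet_minpoly (F := ℚ) (A := ℂ) b] at hz'
  obtain ⟨ψ, rfl⟩ := hz'
  obtain ⟨g, hg⟩ := exists_aut_of_embedding φ₀ ψ.toRingHom
  have hg' : ψ b = φ₀ (g b) := hg b
  show ‖ψ b‖ < 1
  rw [hg']
  refine hconj g fun h => hne ?_
  show ψ b = _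
  rw [hg', h, hφb]

/-- Powers of Pisot numbers are geometrically near the integers. -/
theorem exists_infinite_near {α : ℝ} {h : ℕ} (hh : 0 < h) (hP : IsPisot (α ^ h)) :
    ∃ l : ℝ, 0 < l ∧ l < 1 ∧ {n : ℕ | |α ^ n - round (α ^ n)| < l ^ n}.Infinite := by
  obtain ⟨C, r, -, hr0, hr1, hle⟩ := exists_round_pow_le hP
  obtain ⟨q, hrq, hq1⟩ := exists_between hr1
  have hq0 : 0 < q := hr0.trans_lt hrq
  set l := q ^ ((h : ℝ)⁻¹)
  have hlh : l ^ h = q := Real.rpow_inv_natCast_pow hq0.le hh.ne'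
  refine ⟨l, Real.rpow_pos_of_pos hq0 _, Real.rpow_lt_one hq0.le hq1 (by positivity), ?_⟩
  have hev : ∀ᶠ k : ℕ in atTop, C * r ^ k < q ^ k := by
    have ht := (tendsto_pow_atTop_nhds_zero_of_lt_one (div_nonneg hr0 hq0.le)
      ((div_lt_one hq0).2 hrq)).const_mul C
    rw [mul_zero] at ht
    filter_upwards [ht.eventually_lt_const one_pos] with k hk
    rwa [div_pow, ← mul_div_assoc, div_lt_one (pow_pos hq0 k)] at hk
  obtain ⟨k₀, hk₀⟩ := eventually_atTop.1 hev
  refine Set.infinite_of_injective_forall_mem (f := fun k => h * (k + k₀))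
    (fun x y hxy => by simpa [hh.ne'] using hxy) fun k => ?_
  show |α ^ (h * (k + k₀)) - _| < l ^ (h * (k + k₀))
  rw [pow_mul, pow_mul l, hlh]
  exact (hle _).trans_lt (hk₀ _ (Nat.le_add_left _ _))

end FA.CorvajaZannier

end
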