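import Fermat.Agent.CorvajaZannier.Mahler
import Fermat.Agent.Subspace.Applications

/-!
# Multiples of powers near integers: pseudo-Pisot numbers

The main theorem of Corvaja and Zannier for the powers of one algebraic number: apart from finitely
many `(q, n)`, a number `q λ α ^ n` of absolute value above one within `l ^ n q ^ (-d - ε)` of an
integer is that integer or pseudo-Pisot. The finitely many `n` left by the trace argument have
finitely many `q` each by Roth's theorem.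
-/

set_option autoImplicit false
set_option linter.style.haveILetI false

noncomputable section

namespace FA.CorvajaZannier

open Finset Polynomial NumberField Filter FA.Subspace

/-- A pseudo-Pisot number: algebraic, above one in absolute value, the other conjugates inside
the unit disc and the trace a rational integer. -/
def IsPseudoPisot (x : ℝ) : Prop :=
  1 < |x| ∧ IsAlgebraic ℚ x ∧ (∀ z : ℂ, aeval z (minpoly ℚ x) = 0 → z ≠ (x : ℂ) → ‖z‖ < 1) ∧
    ∃ t : ℤ, (minpoly ℚ x).nextCoeff = t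

/-- For one exponent there are finitely many multipliers. -/
theorem finite_multipliers {θ : ℝ} (hθ : IsAlgebraic ℚ θ) {C : ℝ} {e : ℝ}
    (he : 1 < e) :
    {q : ℕ | 0 < q ∧ 0 < |q * θ - round (q * θ)| ∧
      |q * θ - round (q * θ)| < C * (q : ℝ) ^ (-e)}.Finite := by
  by_cases hirr : Irrational θ
  · obtain ⟨e', he', he'e⟩ := exists_between he
    have hind : LinearIndependent ℚ (Fin.cons 1 (fun _ : Fin 1 => θ) : Fin 2 → ℝ) := by
      refine Fintype.linearIndependent_iff.2 fun g hg => ?_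
      rw [Fin.sum_univ_two] at hg
      simp only [Fin.cons_zero, Fin.cons_one, Rat.smul_def, mul_one] at hg
      have h1 : g 1 = 0 := by
        by_contra hne
        refine hirr ⟨-g 0 / g 1, ?_⟩
        push_cast
        rw [div_eq_iff (Rat.cast_ne_zero.2 hne)]
        linear_combination -hg
      rw [h1, Rat.cast_zero, zero_mul, add_zero, Rat.cast_eq_zero] at hg
      exact Fin.forall_fin_two.2 ⟨hg, h1⟩
    have hev : ∀ᶠ q : ℕ in atTop, C ≤ (q : ℝ) ^ (e - e') :=
      ((tendsto_rpow_atTop (sub_pos.2 he'e)).comp tendsto_natCast_atTop_atTop).eventually_ge_atTop C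
    obtain ⟨q₀, hq₀⟩ := eventually_atTop.1 hev
    refine ((finite_simultaneous le_rfl (fun _ => θ) (fun _ => hθ) hind (sub_pos.2 he')).union
      (Set.finite_lt_nat q₀)).subset fun q ⟨hq, _, hlt⟩ => ?_
    rcases lt_or_ge q q₀ with h | h
    · exact Or.inr h
    have hq' : (0 : ℝ) < q := Nat.cast_pos.2 hq
    refine Or.inl ⟨hq, fun _ => round (q * θ), ?_⟩
    simp only [univ_unique, prod_singleton]
    rw [show (1 : ℝ) + (e' - 1) = e' by ring]
    refine (mul_lt_mul_of_pos_left hlt (Real.rpow_pos_of_pos hq' _)).trans_le ?_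
    rw [mul_left_comm, ← Real.rpow_add hq', show e' + -e = -(e - e') by ring,
      Real.rpow_neg hq'.le, ← div_eq_mul_inv, div_le_one (Real.rpow_pos_of_pos hq' _)]
    exact hq₀ q h
  · obtain ⟨r, rfl⟩ : ∃ r : ℚ, (r : ℝ) = θ := not_not.1 hirr
    have hev : ∀ᶠ q : ℕ in atTop, C * (r.den : ℝ) * (q : ℝ) ^ (-e) < 1 := by
      have ht := ((tendsto_rpow_neg_atTop (zero_lt_one.trans he)).comp
        tendsto_natCast_atTop_atTop).const_mul (C * (r.den : ℝ))
      rw [mul_zero] at ht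
      exact ht.eventually_lt_const one_pos
    obtain ⟨q₀, hq₀⟩ := eventually_atTop.1 hev
    refine (Set.finite_lt_nat q₀).subset fun q ⟨_, hpos, hlt⟩ => ?_
    by_contra hge
    set R := round ((q : ℝ) * r)
    have hM : ((q * r.num - R * r.den : ℤ) : ℝ) = ((q : ℝ) * r - R) * r.den := by
      have hr : (r : ℝ) * r.den = (r.num : ℝ) := by exact_mod_cast r.mul_den_eq_num
      push_cast
      linear_combination -(q : ℝ) * hr
    have hden : (0 : ℝ) < r.den := Nat.cast_pos.2 r.pos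
    have h1 : (1 : ℝ) ≤ |((q : ℝ) * r - R) * r.den| := by
      rw [← hM, ← Int.cast_abs]
      have h0 : (q * r.num - R * r.den : ℤ) ≠ 0 := fun h => hpos.ne' (by
        rw [h, Int.cast_zero, eq_comm, mul_eq_zero] at hM
        simp [hM.resolve_right hden.ne'])
      exact_mod_cast Int.one_le_abs h0
    rw [abs_mul, abs_of_pos hden] at h1
    have h2 := mul_lt_mul_of_pos_right hlt hden
    linarith [hq₀ q (not_lt.1 hge)]

/-- Eventually the conjugates `a x * x ^ k` are different. -/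
theorem eventually_injOn {K : Type*} [Field K] [NumberField K] {B : Finset K} (hB : Nondeg B)
    (a : K → K) (ha : ∀ x ∈ B, a x ≠ 0) :
    ∀ᶠ k : ℕ in atTop, Set.InjOn (fun x => a x * x ^ k) (B : Set K) := by
  classical
  have h : ∀ᶠ k : ℕ in atTop, ∀ p ∈ B.offDiag, a p.1 * p.1 ^ k ≠ a p.2 * p.2 ^ k := by
    refine (eventually_all_finset _).2 fun p hp => ?_
    obtain ⟨x, y⟩ := p
    obtain ⟨hx, hy, hxy⟩ := mem_offDiag.1 hp
    by_contra hf
    rw [not_eventually] at hf
    have h0 := coeff_eq_zero hB (fun z => if z = x then a x else if z = y then -a y else 0)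
      ((Nat.frequently_atTop_iff_infinite.1 hf).mono fun k hk => ?_) hx
    · simp only [if_true] at h0
      exact ha x hx h0
    simp only [Set.mem_ofPred_eq, not_not] at hk ⊢
    rw [sum_eq_add_of_mem x y hx hy hxy fun z _ hz => by rw [if_neg hz.1, if_neg hz.2, zero_mul]]
    rw [if_pos rfl, if_neg hxy.symm, if_pos rfl, hk]
    ring
  filter_upwards [h] with k hk x hx y hy he
  by_contra hxy
  exact hk (x, y) (mem_offDiag.2 ⟨hx, hy, hxy⟩) he

/-- The trace relation makes a pseudo-Pisot number. -/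
theorem isPseudoPisot_of_trace {K : Type*} [Field K] [NumberField K] [IsGalois ℚ K]
    (φ₀ : K →+* ℂ) {b c : K} {a : K → K} (ha : ∀ σ : K ≃ₐ[ℚ] K, a (σ b) = σ c) {x : ℝ} {q k : ℕ}
    {p : ℤ} (hq : q ≠ 0) (hx : (q : ℂ) * (φ₀ c * φ₀ b ^ k) = (x : ℂ)) (hbig : 1 < |x|)
    (hinj : Set.InjOn (fun y => a y * y ^ k) (conjugates b : Set K))
    (hp : (p : K) = (q : K) * ∑ y ∈ conjugates b, a y * y ^ k)
    (hsmall : ∀ y ∈ conjugates b, y ≠ b → ‖(q : ℂ) * φ₀ (a y * y ^ k)‖ < 1) :
    IsPseudoPisot x := by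
  classical
  set z : K := (q : K) * (c * b ^ k)
  have hz : φ₀ z = (x : ℂ) := by
    simp only [z, map_mul, map_natCast, map_pow]
    exact hx
  have hab : a b = c := ha 1
  have hmin : minpoly ℚ x = minpoly ℚ z := by
    rw [← minpoly.algHom_eq φ₀.toRatAlgHom φ₀.injective z,
      ← minpoly.algHom_eq Complex.ofRealHom.toRatAlgHom Complex.ofReal_injective x]
    exact congrArg (minpoly ℚ) hz.symm
  set F : K → ℂ := fun y => (q : ℂ) * φ₀ (a y * y ^ k)
  have hgz : ∀ g : K ≃ₐ[ℚ] K, φ₀ (g z) = F (g b) := fun g => by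
    simp only [z, F, ha g, map_mul, map_natCast, map_pow]
  have hroots : ∀ w : ℂ, aeval w (minpoly ℚ z) = 0 ↔ ∃ y ∈ conjugates b, F y = w := fun w => by
    refine ⟨fun hw => ?_, ?_⟩
    · have hw' : w ∈ (minpoly ℚ z).rootSet ℂ :=
        mem_rootSet.2 ⟨minpoly.ne_zero (Algebra.IsIntegral.isIntegral z), hw⟩
      rw [← Algebra.IsAlgebraic.range_eval_eq_rootSet_minpoly (F := ℚ) (A := ℂ) z] at hw'
      obtain ⟨ψ, rfl⟩ := hw'
      obtain ⟨g, hg⟩ := exists_aut_of_embedding φ₀ ψ.toRingHom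
      exact ⟨g b, mem_conjugates.2 ⟨g, rfl⟩, (hgz g).symm.trans (hg z).symm⟩
    · rintro ⟨y, hy, rfl⟩
      obtain ⟨g, rfl⟩ := mem_conjugates.1 hy
      rw [← hgz g]
      show aeval (φ₀.toRatAlgHom (g z)) (minpoly ℚ z) = 0
      rw [aeval_algHom_apply, aeval_algHom_apply, minpoly.aeval, map_zero, map_zero]
  refine ⟨hbig, ⟨minpoly ℚ z, minpoly.ne_zero (Algebra.IsIntegral.isIntegral z), ?_⟩,
    fun w hw hne => ?_, -p, ?_⟩
  · rw [← hmin]
    exact minpoly.aeval ℚ x
  · rw [hmin] at hw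
    obtain ⟨y, hy, rfl⟩ := (hroots w).1 hw
    refine hsmall y hy fun hyb => hne ?_
    rw [← hz, hyb]
    simp only [F, z, hab, map_mul, map_natCast, map_pow]
  · rw [hmin]
    set G := (minpoly ℚ z).map (algebraMap ℚ ℂ)
    have hGm : G.Monic := (minpoly.monic (Algebra.IsIntegral.isIntegral z)).map _
    have hnd : G.roots.Nodup :=
      nodup_roots (Separable.map (Algebra.IsSeparable.isSeparable ℚ z))
    have hset : G.roots.toFinset = (conjugates b).image F := by
      ext w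
      rw [Multiset.mem_toFinset, mem_roots', IsRoot.def, eval_map, ← aeval_def, hroots w, mem_image]
      exact ⟨fun h => h.2, fun h => ⟨hGm.ne_zero, h⟩⟩
    have hFinj : Set.InjOn F (conjugates b : Set K) := fun y hy y' hy' h =>
      hinj hy hy' (φ₀.injective (mul_left_cancel₀ (Nat.cast_ne_zero.2 hq) h))
    have hsum : G.nextCoeff = -(p : ℂ) := by
      rw [(IsAlgClosed.splits G).nextCoeff_eq_neg_sum_roots_of_monic hGm,
        show G.roots.sum = ∑ w ∈ G.roots.toFinset, w by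
          rw [sum_eq_multiset_sum, Multiset.toFinset_val, hnd.dedup, Multiset.map_id'],
        hset, sum_image hFinj, ← map_intCast φ₀ p, hp, map_mul, map_natCast, map_sum, mul_sum]
    rw [nextCoeff_map (algebraMap ℚ ℂ).injective] at hsum
    refine (algebraMap ℚ ℂ).injective ?_
    rw [hsum]
    simp

/-- **The main theorem of Corvaja and Zannier for powers.** -/
theorem finite_not_pseudoPisot {α lam : ℝ} (hα0 : α ≠ 0) (halg : IsAlgebraic ℚ α)
    (hlam0 : lam ≠ 0) (hlam : IsAlgebraic ℚ lam) {l ε : ℝ} (hl0 : 0 < l) (hl : l < 1)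
    (hε : 0 < ε) :
    {x : ℕ × ℕ | 0 < x.1 ∧ 1 < |(x.1 : ℝ) * (lam * α ^ x.2)| ∧
      ¬IsPseudoPisot ((x.1 : ℝ) * (lam * α ^ x.2)) ∧
      0 < |(x.1 : ℝ) * (lam * α ^ x.2) - round ((x.1 : ℝ) * (lam * α ^ x.2))| ∧
      |(x.1 : ℝ) * (lam * α ^ x.2) - round ((x.1 : ℝ) * (lam * α ^ x.2))| <
        l ^ x.2 * (x.1 : ℝ) ^ (-(((minpoly ℚ α).natDegree : ℝ) + ε))}.Finite := by
  classical
  set d := (minpoly ℚ α).natDegree
  have hd : 1 ≤ d := minpoly.natDegree_pos halg.isIntegral
  set E : ℕ → ℕ → Prop := fun q n => 0 < q ∧ 1 < |(q : ℝ) * (lam * α ^ n)| ∧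
    ¬IsPseudoPisot ((q : ℝ) * (lam * α ^ n)) ∧
    0 < |(q : ℝ) * (lam * α ^ n) - round ((q : ℝ) * (lam * α ^ n))| ∧
    |(q : ℝ) * (lam * α ^ n) - round ((q : ℝ) * (lam * α ^ n))| <
      l ^ n * (q : ℝ) ^ (-((d : ℝ) + ε))
  show {x : ℕ × ℕ | E x.1 x.2}.Finite
  by_contra hinf
  have hninf : {n : ℕ | ∃ q, E q n}.Infinite := fun hfin => hinf ((hfin.biUnion
    (t := fun n => (fun q => (q, n)) '' {q | E q n}) fun n _ => ((finite_multipliers
      (hlam.mul (halg.pow n)) (show (1 : ℝ) < (d : ℝ) + ε by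
        have : (1 : ℝ) ≤ d := Nat.one_le_cast.2 hd
        linarith)).subset fun q hq => ⟨hq.1, hq.2.2.2.1, hq.2.2.2.2⟩).image _).subset
    fun x hx => Set.mem_biUnion ⟨x.1, hx⟩ ⟨x.1, hx, rfl⟩)
  obtain ⟨K, _, _, φ₀, a₀, c₀, N, hN, hφa, hφc, hnd⟩ := exists_model halg hlam hα0
  obtain ⟨r, hr, hrinf⟩ : ∃ r < N, {k : ℕ | ∃ q, E q (N * k + r)}.Infinite :=
    exists_residue hN hninf
  set b := a₀ ^ N
  set c := c₀ * a₀ ^ r
  have ha0 : a₀ ≠ 0 := fun h => hα0 (by
    rw [h, map_zero, eq_comm, Complex.ofReal_eq_zero] at hφa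
    exact hφa)
  have hc : c ≠ 0 := mul_ne_zero (fun h => hlam0 (by
    rw [h, map_zero, eq_comm, Complex.ofReal_eq_zero] at hφc
    exact hφc)) (pow_ne_zero r ha0)
  have hval : ∀ k : ℕ, φ₀ c * φ₀ b ^ k = ((lam * α ^ (N * k + r) : ℝ) : ℂ) := fun k => by
    simp only [b, c, map_mul, map_pow, hφa, hφc]
    push_cast
    ring
  have hcard : (conjugates b).card ≤ d := by
    set A := ((minpoly ℚ a₀).aroots K).toFinset
    have hsub : conjugates b ⊆ A.image (· ^ N) := fun x hx => by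
      obtain ⟨σ, rfl⟩ := mem_conjugates.1 hx
      refine mem_image.2 ⟨σ a₀, Multiset.mem_toFinset.2 (mem_aroots.2
        ⟨minpoly.ne_zero (Algebra.IsIntegral.isIntegral a₀), ?_⟩), (map_pow σ a₀ N).symm⟩
      rw [aeval_algHom_apply, minpoly.aeval, map_zero]
    refine (card_le_card hsub).trans (card_image_le.trans ((Multiset.toFinset_card_le _).trans
      ((card_roots' _).trans ?_)))
    rw [natDegree_map]
    refine le_of_eq (congrArg natDegree ?_)
    rw [← minpoly.algHom_eq φ₀.toRatAlgHom φ₀.injective a₀,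
      ← minpoly.algHom_eq Complex.ofRealHom.toRatAlgHom Complex.ofReal_injective α]
    exact congrArg (minpoly ℚ) hφa
  have hnorm : ∀ x : ℝ, ‖(x : ℂ)‖ = |x| := fun x => by rw [Complex.norm_real, Real.norm_eq_abs]
  have hstart : {k : ℕ | ∃ q p, Approx (conjugates b) φ₀ c b l ε k q p ∧
      1 < ‖(q : ℂ) * (φ₀ c * φ₀ b ^ k)‖ ∧
      (¬IsPseudoPisot ((q : ℝ) * (lam * α ^ (N * k + r))) ∧
        1 < |(q : ℝ) * (lam * α ^ (N * k + r))|)}.Infinite := by
    refine Set.Infinite.mono ?_ hrinf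
    rintro k ⟨q, hq, hbig, hnot, -, hlt⟩
    refine ⟨q, round ((q : ℝ) * (lam * α ^ (N * k + r))), ⟨hq, ?_⟩, ?_, hnot, hbig⟩
    · rw [hval, show (q : ℂ) * ((lam * α ^ (N * k + r) : ℝ) : ℂ) -
          (round ((q : ℝ) * (lam * α ^ (N * k + r))) : ℂ) =
        (((q : ℝ) * (lam * α ^ (N * k + r)) - round ((q : ℝ) * (lam * α ^ (N * k + r))) : ℝ) : ℂ) by
          push_cast; rfl, hnorm]
      refine hlt.trans_le (mul_le_mul (pow_le_pow_of_le_one hl0.le hl.le
        ((Nat.le_mul_of_pos_left k hN).trans (Nat.le_add_right _ _)))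
          (Real.rpow_le_rpow_of_exponent_le (Nat.one_le_cast.2 hq) ?_) (by positivity)
          (by positivity))
      have : ((conjugates b).card : ℝ) ≤ d := by exact_mod_cast hcard
      linarith
    · rw [hval, norm_mul, Complex.norm_natCast, hnorm]
      rwa [abs_mul, Nat.abs_cast] at hbig

  obtain ⟨a, ha, hainf⟩ := exists_trace φ₀ (pow_ne_zero N ha0) hc hnd hl0 hl hε
    (fun k q p => ¬IsPseudoPisot ((q : ℝ) * (lam * α ^ (N * k + r))) ∧
      1 < |(q : ℝ) * (lam * α ^ (N * k + r))|) hstart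
  have hB := nondeg_conjugates (pow_ne_zero N ha0) hnd
  have hane : ∀ y ∈ conjugates b, a y ≠ 0 := fun y hy => by
    obtain ⟨σ, rfl⟩ := mem_conjugates.1 hy
    rw [ha]
    exact (map_ne_zero σ).2 hc
  obtain ⟨k, hinj, q, p, hqp, ⟨hnot, hbig⟩, hp, hsmall⟩ :=
    ((eventually_injOn hB a hane).and_frequently
      (Nat.frequently_atTop_iff_infinite.2 hainf)).exists
  refine hnot (isPseudoPisot_of_trace φ₀ ha hqp.1.ne' ?_ hbig hinj hp
    fun y hy hyb => (hsmall y hy hyb).2)
  rw [hval]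
  push_cast
  rfl

end FA.CorvajaZannier

end
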