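import Fermat.Agent.CorvajaZannier.Quadratic
import Fermat.Agent.PeriodicFractions.Serret
import Fermat.Agent.PeriodicFractions.SquareRoot

/-!
# Short periods of the powers of a quadratic irrational

Let `α > 1` have no pseudo-Pisot small multiples of powers. By the main theorem the first
continuants of `α ^ n` are `e ^ (o (n))`. The fourth complete quotient is reduced, hence repeats
after the period, and two equal quotients make `α ^ n - α' ^ n` as small as the continuants.
-/

set_option autoImplicit false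

noncomputable section

namespace FA.CorvajaZannier

open Filter FA.PeriodicFractions

/-- `k` is a period of the continued fraction, from some place on. -/
def HasPeriod (x : ℝ) (k : ℕ) : Prop := ∃ N, cq x (N + k) = cq x N

/-- Numbers sharing a complete quotient have the same periods. -/
theorem HasPeriod.of_share {x y : ℝ} {i j k : ℕ} (h : cq x i = cq y j) (hk : HasPeriod x k) :
    HasPeriod y k := by
  obtain ⟨N, hN⟩ := hk
  refine ⟨j + N, ?_⟩
  rw [add_assoc, cq_add, ← h, ← cq_add, cq_add y j N, ← h, ← cq_add,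
    show i + (N + k) = N + k + i by ring, cq_add, hN, ← cq_add, add_comm N i]

/-- Unimodular transformations keep the periods. -/
theorem HasPeriod.mobius {x y : ℝ} (hx : Irrational x) (hy : Irrational y) {a b c e : ℤ}
    (hdet : |a * e - b * c| = 1) (h : y * (c * x + e) = a * x + b) {k : ℕ}
    (hk : HasPeriod x k) : HasPeriod y k := by
  obtain ⟨i, j, hij⟩ := (serret hx hy).2 ⟨a, b, c, e, hdet, h⟩
  exact hk.of_share hij

theorem HasPeriod.two_mul {x : ℝ} {k : ℕ} (h : HasPeriod x k) : HasPeriod x (k + k) := by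
  obtain ⟨N, hN⟩ := h
  exact ⟨N, by rw [← add_assoc, cq_add, hN, ← cq_add, hN]⟩

/-- One step of the continuants. -/
theorem contin_step {x : ℝ} (hx : Irrational x) (i : ℕ) :
    ∃ p p' q q' : ℤ, contin x (i + 1) = (p, p', q, q') ∧ 0 < q ∧ 0 ≤ q' ∧ q' ≤ q ∧
      |x * q - p| * ((q : ℝ) * digit x (i + 1)) ≤ 1 ∧
      (contin x (i + 2)).2.2.1 = q * digit x (i + 1) + q' := by
  obtain ⟨p, p', q, q', he, hrel, hdet, hq', hq⟩ := contin_spec hx (i + 1)
  obtain ⟨hq0, hqq⟩ := hq.resolve_left i.succ_ne_zero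
  have hu := one_lt_cq hx i
  have h1 : (0 : ℝ) < q := by exact_mod_cast hq0
  have h2 : (0 : ℝ) ≤ q' := by exact_mod_cast hq'
  have hdet' : |(p : ℝ) * q' - p' * q| = 1 := by exact_mod_cast hdet
  have hA : |x * q - p| * ((q : ℝ) * cq x (i + 1) + q') = 1 := by
    rw [show |x * q - p| * ((q : ℝ) * cq x (i + 1) + q') =
        |(x * q - p) * ((q : ℝ) * cq x (i + 1) + q')| by
      rw [abs_mul, abs_of_pos (show (0 : ℝ) < (q : ℝ) * cq x (i + 1) + q' by positivity)],
      ← hdet', ← abs_neg]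
    congr 1
    linear_combination -(q : ℝ) * hrel
  have ha : (digit x (i + 1) : ℝ) ≤ cq x (i + 1) := Int.floor_le _
  refine ⟨p, p', q, q', he, hq0, hq', hqq, ?_, by rw [contin, he]⟩
  refine le_of_le_of_eq (mul_le_mul_of_nonneg_left ?_ (abs_nonneg _)) hA
  nlinarith

/-- The fourth complete quotient is reduced when the conjugate is far. -/
theorem reduced_three {x v : ℝ} (hx : Irrational x) (hv : IsConjugate x v) (hfar : 3 ≤ |x - v|) :
    ∃ w, IsConjugate (cq x 3) w ∧ 1 < cq x 3 ∧ -1 < w ∧ w < 0 := by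
  obtain ⟨h1, -⟩ := isConjugate_step hx hv (digit x 0)
  have hfr : |x - digit x 0| ≤ 1 := by
    rw [abs_le]
    constructor <;> linarith [Int.floor_le x, Int.lt_floor_add_one x,
      show (digit x 0 : ℝ) = ⌊x⌋ from rfl]
  have hv1 : (v - digit x 0)⁻¹ < 1 := by
    have habs : 2 ≤ |v - digit x 0| := by
      have := abs_sub_le x (digit x 0 : ℝ) v
      rw [abs_sub_comm (digit x 0 : ℝ) v] at this
      linarith
    refine lt_of_le_of_lt (le_abs_self _) ?_
    rw [abs_inv]
    exact inv_lt_one_of_one_lt₀ (by linarith)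
  obtain ⟨h2, -⟩ := isConjugate_step (irrational_cq hx 1) (v := (v - digit x 0)⁻¹)
    (by exact h1) (digit x 1)
  have hd1 : (1 : ℝ) ≤ digit x 1 := by exact_mod_cast one_le_digit hx 0
  have hv2 : ((v - digit x 0)⁻¹ - digit x 1)⁻¹ < 0 := inv_lt_zero.2 (by linarith)
  obtain ⟨h3, -⟩ := isConjugate_step (irrational_cq hx 2)
    (v := ((v - digit x 0)⁻¹ - digit x 1)⁻¹) (by exact h2) (digit x 2)
  have hd2 : (1 : ℝ) ≤ digit x 2 := by exact_mod_cast one_le_digit hx 1
  refine ⟨_, h3, one_lt_cq hx 2, ?_, inv_lt_zero.2 (by linarith)⟩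
  rw [show (-1 : ℝ) = (-1)⁻¹ by norm_num]
  exact (inv_lt_inv_of_neg (by norm_num) (by linarith)).2 (by linarith)

/-- A period holds at the reduced quotient already. -/
theorem cq_three_add {x v : ℝ} (hx : Irrational x) (hv : IsConjugate x v) (hfar : 3 ≤ |x - v|)
    {k : ℕ} (hk : HasPeriod x k) : cq x (3 + k) = cq x 3 := by
  obtain ⟨w, hw, hu, hw1, hw2⟩ := reduced_three hx hv hfar
  obtain ⟨K, hK, hper⟩ := (purely_periodic_iff (irrational_cq hx 3)).2 ⟨w, hw, hu, hw1, hw2⟩
  have hK' : ∀ L, cq x (3 + L * K) = cq x 3 := by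
    intro L
    induction L with
    | zero => rw [zero_mul, add_zero]
    | succ L ih =>
      have h0 := cq_periodic (irrational_cq hx 3) (N := 0) (k := K) fun n _ => hper n
      rw [zero_add] at h0
      rw [Nat.succ_mul, ← add_assoc, cq_add, ih, h0]
      rfl
  obtain ⟨N, hN⟩ := hk
  obtain ⟨d, hd⟩ : ∃ d, 3 + N * K = N + d := ⟨3 + N * K - N, by
    have : N ≤ N * K := Nat.le_mul_of_pos_right N hK
    omega⟩
  calc cq x (3 + k) = cq x (3 + N * K + k) := by rw [cq_add, ← hK' N, ← cq_add]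
    _ = cq x (3 + N * K) := by
        rw [hd, show N + d + k = N + k + d by ring, cq_add, hN, ← cq_add]
    _ = cq x 3 := hK' N

/-- Two equal quotients: the conjugates are as near as the continuants allow. -/
theorem abs_sub_conj_le {x v : ℝ} (hx : Irrational x) (hv : IsConjugate x v) {k : ℕ} (hk : 0 < k)
    (heq : cq x (3 + k) = cq x 3) {M : ℝ}
    (hM : ((contin x 3).2.2.1 : ℝ) ≤ M ∧ ((contin x (3 + k)).2.2.1 : ℝ) ≤ M) :
    |x - v| ≤ 4 * M := by
  obtain ⟨p, p', q, q', he, hrel, hdet, hq', hq⟩ := contin_spec hx 3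
  obtain ⟨hq0, hqq⟩ := hq.resolve_left (by norm_num)
  obtain ⟨P, P', Q, Q', hE, hREL, hDET, hQ', hQ⟩ := contin_spec hx (3 + k)
  obtain ⟨hQ0, hQQ⟩ := hQ.resolve_left (by omega)
  rw [heq] at hREL
  rw [he, hE] at hM
  obtain ⟨e1, e2⟩ := abs_error_le hx (n := 2) he
  obtain ⟨E1, E2⟩ := abs_error_le hx (n := 2 + k) (by rw [← hE]; congr 1; ring)
  set A : ℤ := q' * Q - Q' * q
  set B : ℤ := -(q' * P + p' * Q - Q' * p - P' * q)
  set C : ℤ := p' * P - P' * p
  have hroot : (A : ℝ) * x ^ 2 + B * x + C = 0 := by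
    simp only [A, B, C]
    push_cast
    linear_combination ((Q : ℝ) * x - P) * hrel - ((q : ℝ) * x - p) * hREL
  have hA : A ≠ 0 := by
    intro h0
    have hlt : q < Q := by
      obtain ⟨p₁, p₁', q₁, q₁', he₁, -, -, -, -, hnext⟩ := contin_step hx 2
      rw [show 2 + 1 = 3 from rfl, he, Prod.mk.injEq, Prod.mk.injEq, Prod.mk.injEq] at he₁
      obtain ⟨-, -, rfl, rfl⟩ := he₁
      obtain ⟨g1, -, -, -⟩ := contin_growth hx 1 he
      have hd := one_le_digit hx 2
      have hmono := contin_den_mono hx 3 (k - 1)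
      rw [show 3 + 1 + (k - 1) = 3 + k by omega, hE] at hmono
      have hmono' : (contin x (2 + 2)).2.2.1 ≤ Q := hmono
      rw [hnext] at hmono'
      nlinarith
    obtain ⟨u, hu⟩ : q ∣ Q := by
      have hdvd : q ∣ (p * q' - p' * q) * Q :=
        ⟨p * Q' - p' * Q, by linear_combination p * h0⟩
      rcases (abs_eq zero_le_one).1 hdet with e | e <;> rw [e] at hdvd <;> simpa using hdvd
    obtain rfl : Q' = q' * u := mul_right_cancel₀ hq0.ne' (by
      have h0' : q' * Q - Q' * q = 0 := h0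
      rw [hu] at h0'
      linear_combination -h0')
    rw [hu, show P * (q' * u) - P' * (q * u) = u * (P * q' - P' * q) by ring, abs_mul] at hDET
    have hu1 : |u| = 1 := Int.eq_one_of_mul_eq_one_right (abs_nonneg _) hDET
    rcases (abs_eq zero_le_one).1 hu1 with e | e <;> rw [hu, e] at hlt <;> linarith
  have hvv : v = -(B : ℝ) / A - x := isConjugate_unique hx hv ⟨A, B, C, hA, hroot, by
    field_simp [Int.cast_ne_zero.2 hA]
    ring⟩
  have herr : (A : ℝ) * (v - x) = (q' : ℝ) * (P - x * Q) + Q * (p' - x * q') - Q' * (p - x * q) -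
      q * (P' - x * Q') := by
    rw [hvv]
    have hA' : (A : ℝ) ≠ 0 := Int.cast_ne_zero.2 hA
    field_simp
    simp only [A, B]
    push_cast
    ring
  have hA1 : (1 : ℝ) ≤ |(A : ℝ)| := by exact_mod_cast Int.one_le_abs hA
  have b1 : |(q' : ℝ) * (P - x * Q)| ≤ M := by
    rw [abs_mul, abs_sub_comm, abs_of_nonneg (show (0 : ℝ) ≤ q' by exact_mod_cast hq')]
    exact (mul_le_of_le_one_right (by exact_mod_cast hq') E1).trans
      ((Int.cast_le.2 hqq).trans hM.1)
  have b2 : |(Q : ℝ) * (p' - x * q')| ≤ M := by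
    rw [abs_mul, abs_sub_comm, abs_of_nonneg (show (0 : ℝ) ≤ Q by exact_mod_cast hQ0.le)]
    exact (mul_le_of_le_one_right (by exact_mod_cast hQ0.le) e2).trans hM.2
  have b3 : |(Q' : ℝ) * (p - x * q)| ≤ M := by
    rw [abs_mul, abs_sub_comm, abs_of_nonneg (show (0 : ℝ) ≤ Q' by exact_mod_cast hQ')]
    exact (mul_le_of_le_one_right (by exact_mod_cast hQ') e1).trans
      ((Int.cast_le.2 hQQ).trans hM.2)
  have b4 : |(q : ℝ) * (P' - x * Q')| ≤ M := by
    rw [abs_mul, abs_sub_comm, abs_of_nonneg (show (0 : ℝ) ≤ q by exact_mod_cast hq0.le)]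
    exact (mul_le_of_le_one_right (by exact_mod_cast hq0.le) E2).trans hM.1
  refine (le_mul_of_one_le_left (abs_nonneg _) hA1).trans ?_
  rw [← abs_mul, ← abs_neg, ← mul_neg, neg_sub, herr, abs_le]
  constructor <;>
    linarith [(abs_le.1 b1).1, (abs_le.1 b1).2, (abs_le.1 b2).1, (abs_le.1 b2).2,
      (abs_le.1 b3).1, (abs_le.1 b3).2, (abs_le.1 b4).1, (abs_le.1 b4).2]

variable {α α' : ℝ} {s m : ℚ}

/-- **The continuants are subexponential.** -/
theorem eventually_den_le (h : QuadPair α α' s m) (h2 : Irrational (α ^ 2)) (hα : 1 < α)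
    (hcase : ¬IsIntegral ℤ α ∨ 1 ≤ |α'|) (i : ℕ) :
    ∀ ε : ℝ, 0 < ε → ∀ᶠ n : ℕ in atTop,
      ((contin (α ^ n) (i + 1)).2.2.1 : ℝ) ≤ Real.exp (ε * n) := by
  induction i with
  | zero =>
    intro ε hε
    refine Eventually.of_forall fun n => ?_
    simp only [contin, zero_mul, zero_add]
    rw [Int.cast_one]
    exact Real.one_le_exp (by positivity)
  | succ i ih =>
    intro ε hε
    obtain ⟨δ₀, hδ₀, hPP⟩ := h.eventually_not_pseudoPisot h2 hcase
    set d : ℝ := ((minpoly ℚ α).natDegree : ℝ)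
    have hd : 0 ≤ d := Nat.cast_nonneg _
    set δ := min δ₀ (ε / (8 * (d + 2)))
    have hδ : 0 < δ := lt_min hδ₀ (by positivity)
    have hδd : δ * (8 * (d + 2)) ≤ ε := (le_div_iff₀ (by positivity)).1 (min_le_right _ _)
    have hfin := finite_not_pseudoPisot h.ne_zero h.isAlgebraic one_ne_zero isAlgebraic_one
      (Real.exp_pos (-(ε / 4))) (Real.exp_lt_one_iff.2 (by linarith)) one_pos
    have hout : ∀ᶠ n : ℕ in atTop, n ∉ Prod.snd '' {x : ℕ × ℕ | 0 < x.1 ∧ _} :=
      Nat.cofinite_eq_atTop ▸ (hfin.image Prod.snd).compl_mem_cofinite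
    filter_upwards [ih δ hδ, hPP, hout, eventually_ge_atTop 1,
      eventually_gt_atTop ⌈(4 : ℝ) / ε⌉₊] with n hq hnP hn hn1 hbig
    have hn0 : (0 : ℝ) < n := Nat.cast_pos.2 hn1
    have hbig' : 4 < ε * n := by
      rw [← div_lt_iff₀' hε]
      exact (Nat.le_ceil _).trans_lt (by exact_mod_cast hbig)
    obtain ⟨S, hp⟩ := h.pow h2 hn1
    obtain ⟨p, p', q, q', he, hq0, hq'0, hqq, herr, hnext⟩ := contin_step hp.irr i
    rw [he] at hq
    rw [hnext]
    have hq' : (q : ℝ) ≤ Real.exp (δ * n) := hq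
    have hq1 : (1 : ℝ) ≤ q := by exact_mod_cast hq0
    set a : ℝ := (digit (α ^ n) (i + 1) : ℝ)
    suffices ha : a ≤ Real.exp (ε / 2 * n) by
      push_cast
      have hqq' : (q' : ℝ) ≤ q := Int.cast_le.2 hqq
      have h2e : (2 : ℝ) ≤ Real.exp (ε / 4 * n) :=
        le_trans (by linarith) (Real.add_one_le_exp _)
      have hmul : Real.exp (δ * n) * Real.exp (ε / 2 * n) * Real.exp (ε / 4 * n) ≤
          Real.exp (ε * n) := by
        rw [← Real.exp_add, ← Real.exp_add, Real.exp_le_exp]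
        nlinarith
      refine le_trans ?_ hmul
      have h1e : (1 : ℝ) ≤ Real.exp (ε / 2 * n) := Real.one_le_exp (by positivity)
      nlinarith [mul_le_mul hq' ha (show (0 : ℝ) ≤ a by
        simp only [a]; exact_mod_cast (one_le_digit hp.irr i).trans' zero_le_one)
          (Real.exp_pos _).le, mul_le_mul hq' h1e zero_le_one (Real.exp_pos _).le]
    by_contra! hgt
    lift q to ℕ using hq0.le with Qn hQn
    have hQ0 : 0 < Qn := by exact_mod_cast hq0
    have hlt : |(Qn : ℝ) * α ^ n - p| < Real.exp (-(ε / 2 * n)) := by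
      push_cast at herr
      rw [mul_comm (Qn : ℝ) (α ^ n), Real.exp_neg, ← one_div, lt_div_iff₀ (Real.exp_pos _)]
      refine (mul_lt_mul_of_pos_left (hgt.trans_le (le_mul_of_one_le_left
        ((Real.exp_pos _).le.trans hgt.le) (Nat.one_le_cast.2 hQ0)))
        (abs_pos.2 (sub_ne_zero.2 ((hp.irr.mul_natCast hQ0.ne').ne_int p)))).trans_le herr
    refine hn ⟨(Qn, n), ⟨hQ0, ?_, ?_, ?_, ?_⟩, rfl⟩
    all_goals simp only [one_mul]
    · rw [abs_mul, Nat.abs_cast, abs_pow, abs_of_pos (zero_lt_one.trans hα)]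
      exact lt_of_lt_of_le (one_lt_pow₀ hα (Nat.one_le_iff_ne_zero.1 hn1))
        (le_mul_of_one_le_left (by positivity) (Nat.one_le_cast.2 hQ0))
    · exact hnP Qn hQ0 (le_trans (by exact_mod_cast hq') (Real.exp_le_exp.2
        (mul_le_mul_of_nonneg_right (min_le_left _ _) hn0.le)))
    · exact abs_pos.2 (sub_ne_zero.2 ((hp.irr.natCast_mul hQ0.ne').ne_int _))
    · refine ((round_le _ p).trans_lt hlt).trans_le ?_
      rw [← Real.exp_nat_mul, Real.rpow_def_of_pos (Nat.cast_pos.2 hQ0), ← Real.exp_add,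
        Real.exp_le_exp]
      have hlq : Real.log Qn ≤ δ * n := by
        rw [← Real.log_exp (δ * n)]
        exact Real.log_le_log (Nat.cast_pos.2 hQ0) (by exact_mod_cast hq')
      nlinarith [mul_le_mul_of_nonneg_left hlq (show 0 ≤ d + 1 by linarith),
        mul_le_mul_of_nonneg_right hδd hn0.le]

/-- **No short periods.** -/
theorem eventually_period_gt_of_case (h : QuadPair α α' s m) (h2 : Irrational (α ^ 2))
    (hα : 1 < α) (hcase : ¬IsIntegral ℤ α ∨ 1 ≤ |α'|) (R : ℕ) :
    ∀ᶠ n : ℕ in atTop, ∀ k, 0 < k → HasPeriod (α ^ n) k → R < k := by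
  set M := max α |α'|
  set μ := min α |α'|
  have hM : 1 < M := hα.trans_le (le_max_left _ _)
  have hμ0 : 0 ≤ μ := le_min (zero_le_one.trans hα.le) (abs_nonneg _)
  have hμM : μ < M := by
    rcases lt_or_gt_of_ne (h.abs_ne h2) with e | e <;>
      rw [abs_of_pos (zero_lt_one.trans hα)] at e
    · exact (min_le_left _ _).trans_lt (e.trans_le (le_max_right _ _))
    · exact (min_le_right _ _).trans_lt (e.trans_le (le_max_left _ _))
  set ε := Real.log M / 2
  have hε : 0 < ε := half_pos (Real.log_pos hM)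
  have hden : ∀ᶠ n : ℕ in atTop, ∀ i ∈ Finset.range (R + 3),
      ((contin (α ^ n) (i + 1)).2.2.1 : ℝ) ≤ Real.exp (ε * n) :=
    (eventually_all_finset _).2 fun i _ => eventually_den_le h h2 hα hcase i ε hε
  have hdiff : ∀ᶠ n : ℕ in atTop, 8 * Real.exp (ε * n) + 6 < M ^ n ∧ μ ^ n * 2 ≤ M ^ n := by
    have h1 := (tendsto_pow_atTop_atTop_of_one_lt
      (show 1 < M * Real.exp (-ε) by
        rw [← Real.exp_log (zero_lt_one.trans hM), ← Real.exp_add, Real.one_lt_exp_iff]
        simp only [ε]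
        linarith [Real.log_pos hM])).eventually_gt_atTop 14
    have h2 := (tendsto_pow_atTop_nhds_zero_of_lt_one (div_nonneg hμ0 (zero_le_one.trans hM.le))
      ((div_lt_one (zero_lt_one.trans hM)).2 hμM)).eventually_le_const
        (show (0 : ℝ) < 1 / 2 by norm_num)
    filter_upwards [h1, h2] with n hn1 hn2
    constructor
    · have he : 1 ≤ Real.exp (ε * n) := Real.one_le_exp (by positivity)
      rw [mul_pow, ← Real.exp_nat_mul, mul_neg, Real.exp_neg, ← div_eq_mul_inv,
        lt_div_iff₀ (Real.exp_pos _), mul_comm (n : ℝ) ε] at hn1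
      linarith
    · rw [div_pow, div_le_iff₀ (pow_pos (zero_lt_one.trans hM) n)] at hn2
      linarith
  filter_upwards [hden, hdiff, eventually_ge_atTop 1] with n hq ⟨hbig, hsmall⟩ hn1 k hk hper
  by_contra! hkR
  obtain ⟨S, hp⟩ := h.pow h2 hn1
  have hgap : M ^ n ≤ 2 * |α ^ n - α' ^ n| := by
    have e1 : |α ^ n| = α ^ n := abs_of_pos (pow_pos (zero_lt_one.trans hα) n)
    have e2 := abs_abs_sub_abs_le_abs_sub (α ^ n) (α' ^ n)
    rw [e1, abs_pow] at e2
    rcases le_total α |α'| with e | e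
    · rw [show M = |α'| from max_eq_right e, show μ = α from min_eq_left e] at *
      linarith [neg_le_abs (α ^ n - |α'| ^ n)]
    · rw [show M = α from max_eq_left e, show μ = |α'| from min_eq_right e] at *
      linarith [le_abs_self (α ^ n - |α'| ^ n)]
  have he : 0 < Real.exp (ε * n) := Real.exp_pos _
  have heq := cq_three_add hp.irr hp.isConjugate (by linarith) hper
  have hle := abs_sub_conj_le hp.irr hp.isConjugate hk heq (M := Real.exp (ε * n))
    ⟨hq 2 (Finset.mem_range.2 (by omega)), by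
      have := hq (k + 2) (Finset.mem_range.2 (by omega))
      rwa [show k + 2 + 1 = 3 + k by ring] at this⟩
  linarith

end FA.CorvajaZannier

end
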