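import Fermat.Agent.CorvajaZannier.Period
import Mathlib.Algebra.ContinuedFractions.Computation.TerminatesIffRat
import Mathlib.Algebra.ContinuedFractions.TerminatedStable

/-!
# The period of the continued fraction of a power of a quadratic irrational

Corvaja and Zannier's solution of the problem of Mendès France: the periods of `α ^ n` tend to
infinity iff `α ^ 2` is irrational and `α` is not a unit of the algebraic integers. Inversion and,
for an integral `α` with small conjugate, `x ↦ trace - x` reduce to the numbers without pseudo-Pisot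
multiples; the powers of a unit have period two, and rational powers have finite fractions.
-/

set_option autoImplicit false

noncomputable section

namespace FA.CorvajaZannier

open Filter FA.PeriodicFractions

variable {α α' : ℝ} {s m : ℚ}

theorem QuadPair.sq_irrational_iff (h : QuadPair α α' s m) : Irrational (α ^ 2) ↔ s ≠ 0 := by
  refine ⟨fun h2 hs => h2 ⟨-m, ?_⟩, fun hs => ?_⟩
  · have := h.root
    rw [hs, Rat.cast_zero, zero_mul, sub_zero] at this
    push_cast
    linarith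
  · rw [show α ^ 2 = (s : ℝ) * α - m by linarith [h.root]]
    exact (h.irr.ratCast_mul hs).sub_ratCast m

theorem eventually_period_gt_of_one_lt (h : QuadPair α α' s m) (h2 : Irrational (α ^ 2))
    (hα : 1 < α) (hunit : ¬(IsIntegral ℤ α ∧ IsIntegral ℤ α⁻¹)) (R : ℕ) :
    ∀ᶠ n : ℕ in atTop, ∀ k, 0 < k → HasPeriod (α ^ n) k → R < k := by
  by_cases hcase : ¬IsIntegral ℤ α ∨ 1 ≤ |α'|
  · exact eventually_period_gt_of_case h h2 hα hcase R
  obtain ⟨hint, hlt⟩ := not_or.1 hcase
  rw [not_not] at hint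
  rw [not_le] at hlt
  have hs := h.sq_irrational_iff.1 h2
  have hninv : ¬IsIntegral ℤ α⁻¹ := fun h' => hunit ⟨hint, h'⟩
  obtain ⟨σ, β, β', s', m', hσ, hp, hβ, hβint, hs'⟩ : ∃ (σ : ℤ) (β β' : ℝ) (s' m' : ℚ), |σ| = 1 ∧
      QuadPair β β' s' m' ∧ β * α' = σ ∧ ¬IsIntegral ℤ β ∧ s' ≠ 0 ∧ 0 < β := by
    have h0 := h.symm.inv
    have hni : ¬IsIntegral ℤ α'⁻¹ := fun h' =>
      hninv (h.inv.isIntegral_iff.2 (h0.isIntegral_iff.1 h'))
    rcases lt_or_gt_of_ne h.ne_zero' with hneg | hpos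
    · exact ⟨-1, -α'⁻¹, _, _, _, by simp, h0.neg,
        by rw [neg_mul, inv_mul_cancel₀ h.ne_zero', Int.cast_neg, Int.cast_one],
        fun h' => hni (by simpa using h'.neg), neg_ne_zero.2 (div_ne_zero hs h.m_ne_zero),
        neg_pos.2 (inv_lt_zero.2 hneg)⟩
    · exact ⟨1, α'⁻¹, _, _, _, abs_one, h0,
        by rw [inv_mul_cancel₀ h.ne_zero', Int.cast_one],
        hni, div_ne_zero hs h.m_ne_zero, inv_pos.2 hpos⟩
  obtain ⟨hs'0, hβ0⟩ := hs'
  have hβ2 : Irrational (β ^ 2) := hp.sq_irrational_iff.2 hs'0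
  have hβ1 : 1 < β := by
    have hab := congrArg abs hβ
    rw [abs_mul, ← Int.cast_abs, hσ, Int.cast_one, abs_of_pos hβ0] at hab
    nlinarith [abs_nonneg α']
  filter_upwards [eventually_period_gt_of_case hp hβ2 hβ1 (Or.inl hβint) R,
    eventually_ge_atTop 1] with n hn hn1 k hk hper
  obtain ⟨S, hq⟩ := h.pow h2 hn1
  obtain ⟨S', hr⟩ := hp.pow hβ2 hn1
  obtain ⟨⟨t, ht⟩, -⟩ := hq.isIntegral_iff.1 (hint.pow n)
  refine hn k hk (hper.mobius hq.irr hr.irr (a := 0) (b := σ ^ n) (c := -1) (e := t) ?_ ?_)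
  · rw [zero_mul, zero_sub, mul_neg_one, neg_neg, abs_pow, hσ, one_pow]
  · have hsum := hq.add_eq
    rw [ht, Rat.cast_intCast] at hsum
    push_cast
    rw [← hβ, mul_pow]
    linear_combination -(β ^ n) * hsum

/-- **Corvaja–Zannier**: the periods tend to infinity. -/
theorem eventually_period_gt (h : QuadPair α α' s m) (h2 : Irrational (α ^ 2)) (hα0 : 0 < α)
    (hunit : ¬(IsIntegral ℤ α ∧ IsIntegral ℤ α⁻¹)) (R : ℕ) :
    ∀ᶠ n : ℕ in atTop, ∀ k, 0 < k → HasPeriod (α ^ n) k → R < k := by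
  rcases lt_trichotomy α 1 with hlt | heq | hgt
  · have hinv := h.inv
    have h2' : Irrational (α⁻¹ ^ 2) := hinv.sq_irrational_iff.2
      (div_ne_zero (h.sq_irrational_iff.1 h2) h.m_ne_zero)
    filter_upwards [eventually_period_gt_of_one_lt hinv h2' ((one_lt_inv₀ hα0).2 hlt)
      (by rw [inv_inv, and_comm]; exact hunit) R, eventually_ge_atTop 1] with n hn hn1 k hk hper
    obtain ⟨S, hq⟩ := h.pow h2 hn1
    refine hn k hk (hper.mobius hq.irr (by rw [inv_pow]; exact hq.irr.inv)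
      (a := 0) (b := 1) (c := 1) (e := 0) (by norm_num) ?_)
    rw [inv_pow]
    push_cast
    field_simp
    ring
  · exact absurd heq h.irr.ne_one
  · exact eventually_period_gt_of_one_lt h h2 hgt hunit R

theorem eventually_period_two_of_one_lt (h : QuadPair α α' s m) (h2 : Irrational (α ^ 2))
    (hα : 1 < α) (hint : IsIntegral ℤ α) (hinv : IsIntegral ℤ α⁻¹) :
    ∀ᶠ n : ℕ in atTop, HasPeriod (α ^ n) 2 := by
  obtain ⟨-, b, hb⟩ := h.isIntegral_iff.1 hint
  obtain ⟨-, b', hb'⟩ := h.inv.isIntegral_iff.1 hinv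
  have hunit : b * b' = 1 := by
    have : (b : ℚ) * b' = 1 := by rw [← hb, ← hb', mul_inv_cancel₀ h.m_ne_zero]
    exact_mod_cast this
  filter_upwards [(tendsto_pow_atTop_atTop_of_one_lt hα).eventually_gt_atTop 3,
    eventually_ge_atTop 1] with n hx hn1
  obtain ⟨S, hq⟩ := h.pow h2 hn1
  obtain ⟨⟨t, ht⟩, -⟩ := hq.isIntegral_iff.1 (hint.pow n)
  set x := α ^ n
  set x' := α' ^ n
  have hsum : x + x' = t := by
    rw [hq.add_eq, ht, Rat.cast_intCast]
  have hx0 : x ≠ 0 := by linarith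
  rcases Int.isUnit_iff.1 (IsUnit.pow n (IsUnit.of_mul_eq_one b' hunit)) with e | e
  · have hprod : x * x' = 1 := by
      rw [hq.mul_eq, hb, ← Int.cast_pow, e, Int.cast_one, Rat.cast_one]
    have hx1 : x - 1 ≠ 0 := by linarith
    have hu : 1 < x / (x - 1) := by
      rw [lt_div_iff₀ (by linarith)]
      linarith
    have h0 : x = ((t - 1 : ℤ) : ℝ) + 1 / (x / (x - 1)) := by
      push_cast
      field_simp
      linear_combination x * hsum - hprod
    obtain ⟨-, c1⟩ := cq_step (ξ := x) (n := 0) hu h0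
    obtain ⟨-, c2⟩ := cq_step (ξ := x) (n := 1) (u := x - 1) (a := 1) (by linarith) (by
      rw [c1]
      push_cast
      field_simp
      ring)
    obtain ⟨-, c3⟩ := cq_step (ξ := x) (n := 2) (u := x / (x - 1)) (a := t - 2) hu (by
      rw [c2]
      push_cast at h0 ⊢
      linarith)
    exact ⟨1, c3.trans c1.symm⟩
  · have hprod : x * x' = -1 := by
      rw [hq.mul_eq, hb, ← Int.cast_pow, e, Int.cast_neg, Int.cast_one, Rat.cast_neg, Rat.cast_one]
    obtain ⟨-, c1⟩ := cq_step (ξ := x) (n := 0) (u := x) (a := t) (by linarith) (by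
      show x = _
      field_simp
      linear_combination x * hsum - hprod)
    exact HasPeriod.two_mul (k := 1) ⟨0, c1⟩

/-- **The powers of a unit have period two.** -/
theorem eventually_period_two (h : QuadPair α α' s m) (h2 : Irrational (α ^ 2)) (hα0 : 0 < α)
    (hint : IsIntegral ℤ α) (hinv : IsIntegral ℤ α⁻¹) :
    ∀ᶠ n : ℕ in atTop, HasPeriod (α ^ n) 2 := by
  rcases lt_trichotomy α 1 with hlt | heq | hgt
  · have h2' : Irrational (α⁻¹ ^ 2) := h.inv.sq_irrational_iff.2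
      (div_ne_zero (h.sq_irrational_iff.1 h2) h.m_ne_zero)
    filter_upwards [eventually_period_two_of_one_lt h.inv h2' ((one_lt_inv₀ hα0).2 hlt) hinv
      (by rwa [inv_inv]), eventually_ge_atTop 1] with n hn hn1
    obtain ⟨S, hq⟩ := h.pow h2 hn1
    refine hn.mobius (by rw [inv_pow]; exact hq.irr.inv) hq.irr
      (a := 0) (b := 1) (c := 1) (e := 0) (by norm_num) ?_
    rw [inv_pow]
    push_cast
    field_simp
    ring
  · exact absurd heq h.irr.ne_one
  · exact eventually_period_two_of_one_lt h h2 hgt hint hinv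

/-- Periods of the partial denominators of the continued fraction. -/
theorem hasPeriod_iff_get? {x : ℝ} (hx : Irrational x) (k : ℕ) :
    HasPeriod x k ↔ ∃ N, ∀ i, N ≤ i →
      (GenContFract.of x).s.get? (i + k) = (GenContFract.of x).s.get? i := by
  have he : ∀ i j, (GenContFract.of x).s.get? i = (GenContFract.of x).s.get? j ↔
      digit x (i + 1) = digit x (j + 1) := fun i j => by simp [get?_of hx]
  simp only [he]
  refine ⟨fun ⟨N, hN⟩ => ⟨N, fun i hi => ?_⟩, fun ⟨N, hN⟩ => ⟨N + 1, cq_periodic hx fun i hi => ?_⟩⟩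
  · rw [show i + k + 1 = i + 1 + k by ring]
    exact digit_periodic hN _ (by omega)
  · obtain ⟨j, rfl⟩ : ∃ j, i = j + 1 := ⟨i - 1, by omega⟩
    rw [show j + 1 + k = j + k + 1 by ring]
    exact hN j (by omega)

/-- A rational number has every period. -/
theorem get?_periodic_of_rat (r : ℚ) (k : ℕ) :
    ∃ N, ∀ i, N ≤ i →
      (GenContFract.of (r : ℝ)).s.get? (i + k) = (GenContFract.of (r : ℝ)).s.get? i := by
  obtain ⟨N, hN⟩ := (GenContFract.terminates_iff_rat (r : ℝ)).2 ⟨r, rfl⟩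
  refine ⟨N, fun i hi => ?_⟩
  rw [show (GenContFract.of (r : ℝ)).s.get? (i + k) = none from
      Stream'.Seq.terminated_stable _ (hi.trans (Nat.le_add_right _ _)) hN,
    show (GenContFract.of (r : ℝ)).s.get? i = none from Stream'.Seq.terminated_stable _ hi hN]

/-- **Mendès France's problem**: the exact answer. -/
theorem period_tendsto_iff (hα0 : 0 < α) (hirr : Irrational α) {a b c : ℤ} (ha : a ≠ 0)
    (hroot : (a : ℝ) * α ^ 2 + b * α + c = 0) :
    (∀ R : ℕ, ∀ᶠ n : ℕ in atTop, ∀ N k, 0 < k → (∀ i, N ≤ i →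
      (GenContFract.of (α ^ n)).s.get? (i + k) = (GenContFract.of (α ^ n)).s.get? i) → R < k) ↔
      Irrational (α ^ 2) ∧ ¬(IsIntegral ℤ α ∧ IsIntegral ℤ α⁻¹) := by
  have hQ := QuadPair.exists_of_quadratic hirr ha hroot
  refine ⟨fun h => ?_, fun ⟨h2, hunit⟩ R => ?_⟩
  · have h2 : Irrational (α ^ 2) := by
      by_contra hrat
      obtain ⟨r, hr⟩ : ∃ r : ℚ, (r : ℝ) = α ^ 2 := not_not.1 hrat
      obtain ⟨n, hn⟩ := eventually_atTop.1 (h 1)
      obtain ⟨N, hN⟩ := get?_periodic_of_rat (r ^ n) 1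
      refine lt_irrefl 1 (hn (2 * n) (by omega) N 1 one_pos ?_)
      rw [pow_mul, ← hr, ← Rat.cast_pow]
      exact hN
    refine ⟨h2, fun ⟨h1, h1'⟩ => ?_⟩
    obtain ⟨n, hn, hper, hn1⟩ :=
      ((h 2).and ((eventually_period_two hQ h2 hα0 h1 h1').and (eventually_ge_atTop 1))).exists
    obtain ⟨S, hq⟩ := hQ.pow h2 hn1
    obtain ⟨N, hN⟩ := (hasPeriod_iff_get? hq.irr 2).1 hper
    exact lt_irrefl 2 (hn N 2 two_pos hN)
  · filter_upwards [eventually_period_gt hQ h2 hα0 hunit R, eventually_ge_atTop 1]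
      with n hn hn1 N k hk hper
    obtain ⟨S, hq⟩ := hQ.pow h2 hn1
    exact hn k hk ((hasPeriod_iff_get? hq.irr k).2 ⟨N, hper⟩)

end FA.CorvajaZannier

end
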