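import Fermat.Agent.CorvajaZannier.Multiples
import Fermat.Agent.PeriodicFractions.Lagrange

/-!
# Powers of quadratic irrationals

For the roots `α`, `α'` of a rational `X ^ 2 - s X + m` with `α ^ 2` irrational: the powers are
quadratic irrationals with conjugates `α' ^ n`, and no multiple `q α ^ n` with
`q ≤ e ^ (δ n)` is pseudo-Pisot for large `n`, unless `α` is integral with `|α'| < 1`.
-/

set_option autoImplicit false
set_option linter.style.haveILetI false

noncomputable section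

namespace FA.CorvajaZannier

open Finset Polynomial NumberField Filter FA.Subspace FA.PeriodicFractions

/-- The roots of the rational polynomial `X ^ 2 - s X + m`, the first one irrational. -/
structure QuadPair (α α' : ℝ) (s m : ℚ) : Prop where
  irr : Irrational α
  add_eq : α + α' = s
  mul_eq : α * α' = m

namespace QuadPair

variable {α α' : ℝ} {s m : ℚ}

theorem root (h : QuadPair α α' s m) : α ^ 2 - s * α + m = 0 := by
  rw [← h.add_eq, ← h.mul_eq]; ring

theorem root' (h : QuadPair α α' s m) : α' ^ 2 - s * α' + m = 0 := by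
  rw [← h.add_eq, ← h.mul_eq]; ring

theorem ne_zero (h : QuadPair α α' s m) : α ≠ 0 := h.irr.ne_zero

theorem irr' (h : QuadPair α α' s m) : Irrational α' := by
  rw [show α' = (s : ℝ) - α by rw [← h.add_eq]; ring]
  exact h.irr.ratCast_sub s

theorem ne_zero' (h : QuadPair α α' s m) : α' ≠ 0 := h.irr'.ne_zero

theorem m_ne_zero (h : QuadPair α α' s m) : m ≠ 0 := fun h0 =>
  mul_ne_zero h.ne_zero h.ne_zero' (by rw [h.mul_eq, h0, Rat.cast_zero])

theorem minpoly_eq (h : QuadPair α α' s m) : minpoly ℚ α = X ^ 2 - C s * X + C m := by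
  have hm : (X ^ 2 - C s * X + C m).Monic := by monicity!
  have haev : aeval α (X ^ 2 - C s * X + C m) = 0 := by
    simpa [aeval_def] using h.root
  have hint : IsIntegral ℚ α := ⟨_, hm, by rwa [← aeval_def]⟩
  refine (eq_of_monic_of_dvd_of_natDegree_le (minpoly.monic hint) hm (minpoly.dvd ℚ α haev) ?_).symm
  refine le_trans (le_of_eq (by compute_degree!)) ((minpoly.two_le_natDegree_iff hint).2 ?_)
  rintro ⟨r, hr⟩
  exact h.irr ⟨r, hr⟩

theorem isAlgebraic (h : QuadPair α α' s m) : IsAlgebraic ℚ α :=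
  ⟨X ^ 2 - C s * X + C m, (show (X ^ 2 - C s * X + C m).Monic by monicity!).ne_zero,
    by simpa [aeval_def] using h.root⟩

theorem aeval_conj (h : QuadPair α α' s m) : aeval (α' : ℂ) (minpoly ℚ α) = 0 := by
  rw [h.minpoly_eq]
  simp only [aeval_def, eval₂_add, eval₂_sub, eval₂_X_pow, eval₂_mul, eval₂_C, eval₂_X, eq_ratCast]
  exact_mod_cast h.root'

/-- Integrality is that of the trace and the norm. -/
theorem isIntegral_iff (h : QuadPair α α' s m) :
    IsIntegral ℤ α ↔ (∃ a : ℤ, s = a) ∧ ∃ b : ℤ, m = b := by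
  refine ⟨fun hint => ?_, fun ⟨⟨a, ha⟩, b, hb⟩ =>
    ⟨X ^ 2 - C a * X + C b, by monicity!, ?_⟩⟩
  · have hmap := minpoly.isIntegrallyClosed_eq_field_fractions' ℚ hint
    rw [h.minpoly_eq] at hmap
    refine ⟨⟨-(minpoly ℤ α).coeff 1, ?_⟩, (minpoly ℤ α).coeff 0, ?_⟩
    · have h1 := congrArg (coeff · 1) hmap
      simp only [coeff_add, coeff_sub, coeff_X_pow, coeff_C_mul, coeff_X, coeff_C, coeff_map] at h1
      norm_num at h1
      rw [Int.cast_neg, ← h1, neg_neg]
    · have h1 := congrArg (coeff · 0) hmap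
      simp only [coeff_add, coeff_sub, coeff_X_pow, coeff_C_mul, coeff_X, coeff_C, coeff_map] at h1
      norm_num at h1
      exact h1
  · have := h.root
    rw [ha, hb] at this
    rw [eval₂_add, eval₂_sub, eval₂_X_pow, eval₂_mul, eval₂_C, eval₂_C, eval₂_X, eq_intCast,
      eq_intCast]
    exact_mod_cast this

theorem ne_conj (h : QuadPair α α' s m) : α ≠ α' := fun e =>
  h.irr ⟨s / 2, by push_cast; rw [← h.add_eq, ← e]; ring⟩

theorem inv (h : QuadPair α α' s m) : QuadPair α⁻¹ α'⁻¹ (s / m) m⁻¹ where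
  irr := h.irr.inv
  add_eq := by
    rw [inv_add_inv h.ne_zero h.ne_zero', h.add_eq, h.mul_eq]
    push_cast
    rfl
  mul_eq := by
    rw [← mul_inv, h.mul_eq]
    push_cast
    rfl

theorem neg (h : QuadPair α α' s m) : QuadPair (-α) (-α') (-s) m where
  irr := h.irr.neg
  add_eq := by rw [← neg_add, h.add_eq]; push_cast; rfl
  mul_eq := by rw [neg_mul_neg, h.mul_eq]

theorem symm (h : QuadPair α α' s m) : QuadPair α' α s m :=
  ⟨h.irr', by rw [add_comm, h.add_eq], by rw [mul_comm, h.mul_eq]⟩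

/-- Multiples by a nonzero natural number. -/
theorem natMul (h : QuadPair α α' s m) {q : ℕ} (hq : q ≠ 0) :
    QuadPair (q * α) (q * α') (q * s) ((q : ℚ) ^ 2 * m) where
  irr := h.irr.natCast_mul hq
  add_eq := by rw [← mul_add, h.add_eq]; push_cast; rfl
  mul_eq := by rw [mul_mul_mul_comm, h.mul_eq]; push_cast; ring

theorem exists_of_quadratic (hirr : Irrational α) {a b c : ℤ} (ha : a ≠ 0)
    (hroot : (a : ℝ) * α ^ 2 + b * α + c = 0) :
    QuadPair α (-(b : ℝ) / a - α) (-(b : ℚ) / a) ((c : ℚ) / a) := by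
  have ha' : (a : ℝ) ≠ 0 := Int.cast_ne_zero.2 ha
  refine ⟨hirr, by push_cast; ring, ?_⟩
  push_cast
  field_simp
  linear_combination -hroot

/-- The conjugate in the sense of continued fractions. -/
theorem isConjugate (h : QuadPair α α' s m) : IsConjugate α α' := by
  refine ⟨(s.den : ℤ) * m.den, -(s.num * m.den), m.num * s.den,
    mul_ne_zero (by exact_mod_cast s.den_nz) (by exact_mod_cast m.den_nz), ?_, ?_⟩
  · have hs : (s : ℝ) * s.den = s.num := by exact_mod_cast s.mul_den_eq_num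
    have hm : (m : ℝ) * m.den = m.num := by exact_mod_cast m.mul_den_eq_num
    push_cast
    linear_combination ((s.den : ℝ) * m.den) * h.root + (α * m.den) * hs - (s.den : ℝ) * hm
  · have hs : (s : ℝ) * s.den = s.num := by exact_mod_cast s.mul_den_eq_num
    rw [h.add_eq]
    push_cast
    linear_combination (m.den : ℝ) * hs

/-- The powers. -/
theorem pow (h : QuadPair α α' s m) (h2 : Irrational (α ^ 2)) {n : ℕ} (hn : 0 < n) :
    ∃ S : ℚ, QuadPair (α ^ n) (α' ^ n) S (m ^ n) := by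
  have hrec : ∀ k : ℕ, ∃ u w : ℚ, α ^ k = u * α + w ∧ α' ^ k = u * α' + w := by
    intro k
    induction k with
    | zero => exact ⟨0, 1, by simp, by simp⟩
    | succ k ih =>
      obtain ⟨u, w, h1, h1'⟩ := ih
      refine ⟨u * s + w, -(u * m), ?_, ?_⟩
      · rw [pow_succ, h1]
        push_cast
        linear_combination (u : ℝ) * h.root
      · rw [pow_succ, h1']
        push_cast
        linear_combination (u : ℝ) * h.root'
  obtain ⟨u, w, h1, h1'⟩ := hrec n
  have hu : u ≠ 0 := fun hu0 => by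
    have heq : α ^ n = α' ^ n := by rw [h1, h1', hu0, Rat.cast_zero, zero_mul, zero_mul]
    have habs : |α| = |α'| := by
      rw [← pow_left_inj₀ (abs_nonneg α) (abs_nonneg α') hn.ne', ← abs_pow, ← abs_pow, heq]
    rcases abs_eq_abs.1 habs with e | e
    · exact h.irr ⟨s / 2, by push_cast; rw [← h.add_eq, ← e]; ring⟩
    · refine h2 ⟨-m, ?_⟩
      rw [Rat.cast_neg, ← h.mul_eq, e]
      ring
  refine ⟨u * s + 2 * w, ⟨?_, ?_, ?_⟩⟩
  · rw [h1]
    exact (h.irr.ratCast_mul hu).add_ratCast w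
  · rw [h1, h1', show (u : ℝ) * α + w + (u * α' + w) = u * (α + α') + 2 * w by ring, h.add_eq]
    push_cast
    ring
  · rw [← mul_pow, h.mul_eq]
    push_cast
    rfl

theorem abs_ne (h : QuadPair α α' s m) (h2 : Irrational (α ^ 2)) : |α| ≠ |α'| := fun habs => by
  rcases abs_eq_abs.1 habs with e | e
  · exact h.irr ⟨s / 2, by push_cast; rw [← h.add_eq, ← e]; ring⟩
  · refine h2 ⟨-m, ?_⟩
    rw [Rat.cast_neg, ← h.mul_eq, e]
    ring

/-- A non-integral `α` has no multiples of powers with integral trace by small multipliers. -/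
theorem eventually_trace_not_int (h : QuadPair α α' s m) (h2 : Irrational (α ^ 2))
    (hint : ¬IsIntegral ℤ α) :
    ∃ δ : ℝ, 0 < δ ∧ ∀ᶠ n : ℕ in atTop, ∀ q : ℕ, 0 < q → (q : ℝ) ≤ Real.exp (δ * n) →
      ∀ t : ℤ, (q : ℝ) * (α ^ n + α' ^ n) ≠ t := by
  classical
  obtain ⟨K, _, _, φ₀, a, -, N, -, hφa, -, -⟩ :=
    exists_model h.isAlgebraic (isAlgebraic_one : IsAlgebraic ℚ (1 : ℝ)) h.ne_zero
  have hroot : (α' : ℂ) ∈ (minpoly ℚ a).rootSet ℂ := by
    refine mem_rootSet.2 ⟨minpoly.ne_zero (Algebra.IsIntegral.isIntegral a), ?_⟩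
    rw [← minpoly.algHom_eq φ₀.toRatAlgHom φ₀.injective a,
      show φ₀.toRatAlgHom a = Complex.ofRealHom.toRatAlgHom α from hφa,
      minpoly.algHom_eq Complex.ofRealHom.toRatAlgHom Complex.ofReal_injective α]
    exact h.aeval_conj
  rw [← Algebra.IsAlgebraic.range_eval_eq_rootSet_minpoly (F := ℚ) (A := ℂ) a] at hroot
  obtain ⟨ψ, hψ⟩ := hroot
  obtain ⟨g, hg⟩ := exists_aut_of_embedding φ₀ ψ.toRingHom
  have hφg : φ₀ (g a) = (α' : ℂ) := (hg a).symm.trans hψ
  have ha0 : a ≠ 0 := fun e => by rw [e, map_zero] at hφa; exact h.ne_zero (by simpa using hφa.symm)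
  have hnorm : ‖φ₀ a‖ ≠ ‖φ₀ (g a)‖ := by
    rw [hφa, hφg, Complex.norm_real, Complex.norm_real]
    exact h.abs_ne h2
  have hne : a ≠ g a := fun e => hnorm (by rw [← e])
  have hB : Nondeg ({a, g a} : Finset K) := by
    refine ⟨?_, fun x hx y hy hxy k hk e => ?_⟩
    · simp only [mem_insert, mem_singleton, not_or]
      exact ⟨ha0.symm, fun e => ha0 ((map_eq_zero g).1 e.symm)⟩
    · have e' := congrArg (fun z => ‖φ₀ z‖) e
      simp only [map_pow, norm_pow] at e'
      have e'' := (pow_left_inj₀ (norm_nonneg _) (norm_nonneg _) hk.ne').1 e'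
      simp only [mem_insert, mem_singleton] at hx hy
      rcases hx with rfl | rfl <;> rcases hy with rfl | rfl
      exacts [hxy rfl, hnorm e'', hnorm e''.symm, hxy rfl]
  obtain ⟨v, hv⟩ : ∃ v : IsDedekindDomain.HeightOneSpectrum (𝓞 K),
      1 < HeightOneSpectrum.adicAbv K v a := by
    by_contra! hle
    obtain ⟨y, hy⟩ := exists_coe_eq_of_adicAbv_le_one hle
    refine hint ((isIntegral_algHom_iff Complex.ofRealHom.toIntAlgHom
      Complex.ofReal_injective).1 ?_)
    show IsIntegral ℤ (α : ℂ)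
    rw [← hφa, ← hy]
    exact y.isIntegral_coe.map φ₀.toIntAlgHom
  set A := HeightOneSpectrum.adicAbv K v a
  set D : ℝ := (Module.finrank ℚ K : ℝ)
  have hD : 0 < D := Nat.cast_pos.2 Module.finrank_pos
  have hlog : 0 < Real.log A := Real.log_pos hv
  obtain ⟨S₀, hS₀⟩ := eventually_sum_lower hB fun _ => (1 : K)
  refine ⟨Real.log A / (4 * D), by positivity, ?_⟩
  filter_upwards [hS₀ (insert v S₀) (subset_insert _ _) a (mem_insert_self _ _) one_ne_zero
      (.inr ⟨v, mem_insert_self _ _⟩) (Real.log A / 4) (by positivity),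
    eventually_ge_atTop 1] with n hn hn1 q hq hqle t ht
  rw [placeAbv_inr, placeAbv_inr, sum_pair hne, one_mul, one_mul] at hn
  have htK : (t : K) = (q : K) * (a ^ n + g a ^ n) := φ₀.injective (by
    rw [map_intCast, map_mul, map_natCast, map_add, map_pow, map_pow, hφa, hφg]
    exact_mod_cast ht.symm)
  have ht1 : HeightOneSpectrum.adicAbv K v (t : K) ≤ 1 := by
    rw [← map_intCast (algebraMap (𝓞 K) K), ← FinitePlace.norm_embedding]
    exact FinitePlace.norm_le_one K v _
  rw [htK, map_mul] at ht1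
  have hqy : ∀ φ : K →+* ℂ, ‖φ ((q : 𝓞 K) : K)‖ ≤ (q : ℝ) := fun φ => by simp
  have h1 := one_le_placeAbv_mul (S := insert v S₀) (y := (q : 𝓞 K))
    (Nat.cast_ne_zero.2 hq.ne') (Nat.one_le_cast.2 hq) hqy (.inr ⟨v, mem_insert_self _ _⟩)
  rw [placeAbv_inr] at h1
  simp only [map_natCast] at h1
  have hqD : (q : ℝ) ^ Module.finrank ℚ K ≤ Real.exp (Real.log A / 4 * n) := by
    refine (pow_le_pow_left₀ (Nat.cast_nonneg q) hqle _).trans_eq ?_
    rw [← Real.exp_nat_mul]
    congr 1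
    simp only [D]
    field_simp
    exact div_self (Nat.cast_ne_zero.2 Module.finrank_pos.ne')
  have h3 : A ^ n * Real.exp (-(Real.log A / 4 * n)) ≤ Real.exp (Real.log A / 4 * n) := by
    refine le_trans ?_ hqD
    refine (le_mul_of_one_le_left (by positivity) h1).trans ?_
    rw [mul_right_comm]
    exact mul_le_of_le_one_left (by positivity)
      ((mul_le_mul_of_nonneg_left hn (AbsoluteValue.nonneg _ _)).trans ht1)
  rw [← Real.exp_log (zero_lt_one.trans hv), ← Real.exp_nat_mul, ← Real.exp_add, Real.exp_le_exp,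
    Real.log_exp] at h3
  nlinarith [mul_pos hlog (show (0 : ℝ) < n by exact_mod_cast hn1)]

/-- **No pseudo-Pisot multiples.** -/
theorem eventually_not_pseudoPisot (h : QuadPair α α' s m) (h2 : Irrational (α ^ 2))
    (hcase : ¬IsIntegral ℤ α ∨ 1 ≤ |α'|) :
    ∃ δ : ℝ, 0 < δ ∧ ∀ᶠ n : ℕ in atTop, ∀ q : ℕ, 0 < q → (q : ℝ) ≤ Real.exp (δ * n) →
      ¬IsPseudoPisot ((q : ℝ) * α ^ n) := by
  have hgen : ∀ q : ℕ, 0 < q → ∀ n : ℕ, 0 < n → IsPseudoPisot ((q : ℝ) * α ^ n) →
      |(q : ℝ) * α' ^ n| < 1 ∧ ∃ t : ℤ, (q : ℝ) * (α ^ n + α' ^ n) = t := by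
    intro q hq n hn hP
    obtain ⟨S, hp⟩ := h.pow h2 hn
    have hq' := hp.natMul hq.ne'
    obtain ⟨-, -, hconj, t, ht⟩ := hP
    refine ⟨?_, -t, ?_⟩
    · have h1 := hconj _ hq'.aeval_conj fun e => hp.ne_conj
        (mul_left_cancel₀ (Nat.cast_ne_zero.2 hq.ne') (Complex.ofReal_injective e)).symm
      rwa [Complex.norm_real, Real.norm_eq_abs] at h1
    · rw [hq'.minpoly_eq] at ht
      have hdeg : (X ^ 2 - C ((q : ℚ) * S) * X + C ((q : ℚ) ^ 2 * m ^ n)).natDegree = 2 := by
        compute_degree!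
      rw [nextCoeff_of_natDegree_pos (by rw [hdeg]; norm_num), hdeg] at ht
      simp only [coeff_add, coeff_sub, coeff_X_pow, coeff_C_mul, coeff_X, coeff_C] at ht
      norm_num at ht
      rw [hp.add_eq, Int.cast_neg, show (t : ℝ) = ((t : ℚ) : ℝ) by norm_num, ← ht]
      push_cast
      ring
  by_cases hint : IsIntegral ℤ α
  · have h1 : 1 ≤ |α'| := hcase.resolve_left (not_not.2 hint)
    refine ⟨1, one_pos, ?_⟩
    filter_upwards [eventually_ge_atTop 1] with n hn q hq _ hP
    have h3 := (hgen q hq n hn hP).1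
    rw [abs_mul, Nat.abs_cast, abs_pow] at h3
    nlinarith [one_le_pow₀ (n := n) h1, (Nat.one_le_cast (α := ℝ)).2 hq]
  · obtain ⟨δ, hδ, hev⟩ := h.eventually_trace_not_int h2 hint
    refine ⟨δ, hδ, ?_⟩
    filter_upwards [hev, eventually_ge_atTop 1] with n hn hn1 q hq hqle hP
    obtain ⟨t, ht⟩ := (hgen q hq n hn1 hP).2
    exact hn q hq hqle t ht

end QuadPair

end FA.CorvajaZannier

end
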