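import Fermat.Agent.CorvajaZannier.Core

/-!
# The linear relation

If `|q c b ^ k - p| < l ^ k q ^ (-m - ε)` then for the point `(D ^ k p, q (D x) ^ k)`, `x` running
through the `m` conjugates of `b`, take at every embedding the form that gives
`D ^ k (p - q c b ^ k)`, read through the Galois group, and the coordinates otherwise: the product
is a negative power of the height, so infinitely often one fixed relation holds, in which the
coefficient of `p` is not zero.
-/

set_option autoImplicit false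
set_option linter.style.haveILetI false

noncomputable section

namespace FA.CorvajaZannier

open Finset NumberField IsDedekindDomain Filter Topology FA.Subspace

variable {K : Type*} [Field K] [NumberField K]

/-- A geometrically close approximation of `q c b ^ k` by the integer `p`. -/
def Approx (B : Finset K) (φ₀ : K →+* ℂ) (c b : K) (l ε : ℝ) (k q : ℕ) (p : ℤ) : Prop :=
  0 < q ∧ ‖(q : ℂ) * (φ₀ c * φ₀ b ^ k) - p‖ < l ^ k * (q : ℝ) ^ (-((B.card : ℝ) + ε))

omit [NumberField K] in
theorem Approx.lt_one {B : Finset K} {φ₀ : K →+* ℂ} {c b : K} {l ε : ℝ} {k q : ℕ} {p : ℤ}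
    (h : Approx B φ₀ c b l ε k q p) (hl0 : 0 < l) (hl : l < 1) (hε : 0 < ε) :
    ‖(q : ℂ) * (φ₀ c * φ₀ b ^ k) - p‖ < 1 :=
  h.2.trans_le (mul_le_one₀ (pow_le_one₀ hl0.le hl.le) (by positivity)
    (Real.rpow_le_one_of_one_le_of_nonpos (Nat.one_le_cast.2 h.1) (by
      have : (0 : ℝ) ≤ B.card := Nat.cast_nonneg _
      linarith)))

/-- **The relation**: infinitely many of the approximating fractions are one exponential sum. -/
theorem exists_relation {B : Finset K} (hB : Nondeg B) (φ₀ : K →+* ℂ)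
    (hgal : ∀ φ : K →+* ℂ, ∃ g : K ≃ₐ[ℚ] K, ∀ x, φ x = φ₀ (g x))
    (hstab : ∀ (g : K ≃ₐ[ℚ] K), ∀ x ∈ B, g x ∈ B) {b : K} (hb : b ∈ B) (c : K)
    {l ε : ℝ} (hl0 : 0 < l) (hl : l < 1) (hε : 0 < ε) (Q : ℕ → ℕ → ℤ → Prop)
    (hinf : {k : ℕ | ∃ q p, Approx B φ₀ c b l ε k q p ∧ Q k q p}.Infinite) :
    ∃ a : K → K, {k : ℕ | ∃ q p, Approx B φ₀ c b l ε k q p ∧ Q k q p ∧
      (p : K) = (q : K) * ∑ x ∈ B, a x * x ^ k}.Infinite := by
  classical
  obtain ⟨D, hD0, hD⟩ := exists_denominator B
  have hDK : (D : K) ≠ 0 := Nat.cast_ne_zero.2 hD0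
  choose! z hz using hD
  choose g hg using hgal
  set m := B.card
  have hm : 1 ≤ m := card_pos.2 ⟨b, hb⟩
  set e : Fin m ≃ B := B.equivFin.symm
  have hz0 : ∀ x ∈ B, z x ≠ 0 := fun x hx h =>
    mul_ne_zero hDK (fun e : x = 0 => hB.1 (e ▸ hx)) (by rw [← hz x hx, h]; simp)
  set gen : Option B → 𝓞 K := fun o => o.elim (D : 𝓞 K) fun x => z x.1
  obtain ⟨S, hS⟩ := exists_primes_unit gen fun o => by
    cases o with
    | none => exact Nat.cast_ne_zero.2 hD0
    | some x => exact hz0 _ x.2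
  -- the forms
  set xφ : (K →+* ℂ) → K := fun φ => (g φ).symm b
  set row : (K →+* ℂ) → Fin (m + 1) → K := fun φ =>
    Fin.cons 1 fun t => if (e t : K) = xφ φ then -(g φ).symm c else 0
  set R : (K →+* ℂ) → Matrix (Fin (m + 1)) (Fin (m + 1)) K := fun φ =>
    Matrix.of fun i j => if i = 0 then row φ j else if i = j then 1 else 0
  have hR : ∀ φ, (R φ).det ≠ 0 := fun φ h0 => by
    obtain ⟨y, hy, hy0⟩ := Matrix.exists_mulVec_eq_zero_iff.2 h0
    have hne : ∀ i, i ≠ 0 → y i = 0 := fun i hi => by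
      simpa [R, hi, Matrix.mulVec, dotProduct] using congrFun hy0 i
    refine hy (funext fun j => ?_)
    by_cases hj : j = 0
    · have h := congrFun hy0 0
      simp only [R, Matrix.mulVec, dotProduct, Matrix.of_apply, if_true] at h
      rw [sum_eq_single 0 (fun i _ hi => by rw [hne i hi, mul_zero])
        (fun h => absurd (mem_univ (0 : Fin (m + 1))) h)] at h
      simpa [row, hj] using h
    · exact hne j hj
  -- the bound for the size
  set Λ : ℝ := (D + 1) * (2 + ∑ x ∈ B, ∑ φ : K →+* ℂ, ‖φ x‖) * (2 + ‖φ₀ c‖)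
  have hB' : ∀ x ∈ B, ∀ φ : K →+* ℂ, ‖φ x‖ ≤ 2 + ∑ x ∈ B, ∑ φ : K →+* ℂ, ‖φ x‖ := fun x hx φ =>
    (le_add_of_nonneg_left zero_le_two).trans' ((single_le_sum (f := fun φ : K →+* ℂ => ‖φ x‖)
      (fun _ _ => norm_nonneg _) (mem_univ φ)).trans
        (single_le_sum (f := fun x => ∑ φ : K →+* ℂ, ‖φ x‖) (fun _ _ => by positivity) hx))
  set P : ℝ := 2 + ∑ x ∈ B, ∑ φ : K →+* ℂ, ‖φ x‖
  have hP : 1 ≤ P := le_add_of_le_of_nonneg one_le_two (by positivity)
  have hΛ : 1 < Λ := by
    have h1 : (1 : ℝ) ≤ (D : ℝ) + 1 := le_add_of_nonneg_left (Nat.cast_nonneg D)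
    have h2 : 2 ≤ P := le_add_of_nonneg_right (by positivity)
    have h3 : 1 ≤ 2 + ‖φ₀ c‖ := by linarith [norm_nonneg (φ₀ c)]
    calc (1 : ℝ) < 1 * 2 * 1 := by norm_num
      _ ≤ Λ := mul_le_mul (mul_le_mul h1 h2 zero_le_two (by positivity)) h3 zero_le_one
        (by positivity)
  set δ := min (-Real.log l / (2 * Real.log Λ)) (ε / 2)
  have hlogΛ : 0 < Real.log Λ := Real.log_pos hΛ
  have hlogl : Real.log l < 0 := Real.log_neg hl0 hl
  have hδ : 0 < δ := lt_min (div_pos (neg_pos.2 hlogl) (by positivity)) (half_pos hε)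
  obtain ⟨W, hW, hWx⟩ := finite_subspaces_numberField_places (K := K) (n := m) hm
    (fun φ => (R φ).map φ)
    (fun φ => by
      rw [← RingHom.mapMatrix_apply, ← RingHom.map_det]
      exact (map_ne_zero φ).2 (hR φ))
    (fun φ i k => (Algebra.IsAlgebraic.isAlgebraic (R := ℚ) _).algHom φ.toRatAlgHom) S
    (fun _ => 1) (fun _ _ => by simp) hδ
  -- the points
  have key : ∀ k, 1 ≤ k → ∀ (q : ℕ) (p : ℤ), Approx B φ₀ c b l ε k q p →
      ∃ β ∈ W, β 0 * (p : K) + (q : K) * ∑ t, β t.succ * (e t : K) ^ k = 0 := by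
    intro k hk q p hqp
    have hq : 0 < q := hqp.1
    have hp := hqp.2
    have hq1 : (1 : ℝ) ≤ q := Nat.one_le_cast.2 hq
    set ξ : Fin (m + 1) → 𝓞 K := Fin.cons ((D : 𝓞 K) ^ k * p) fun t => (q : 𝓞 K) * z (e t) ^ k
    have hξt : ∀ t : Fin m, (ξ t.succ : K) = (q : K) * ((D : K) ^ k * (e t : K) ^ k) := fun t => by
      simp only [ξ, Fin.cons_succ, map_mul, map_natCast, map_pow, hz _ (e t).2, mul_pow]
    have hξz : (ξ 0 : K) = (D : K) ^ k * p := by simp [ξ]
    have hξ0 : ξ ≠ 0 := fun h => mul_ne_zero (Nat.cast_ne_zero.2 hq.ne')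
      (pow_ne_zero k (hz0 _ (e ⟨0, hm⟩).2))
      (by
        have h1 := congrFun h (Fin.succ ⟨0, hm⟩)
        simp only [ξ, Fin.cons_succ, Pi.zero_apply] at h1
        exact h1)
    suffices h : ∃ β ∈ W, ∑ j, β j * (ξ j : K) = 0 by
      obtain ⟨β, hβ, hsum⟩ := h
      refine ⟨β, hβ, (mul_eq_zero.1 (?_ : (D : K) ^ k * _ = 0)).resolve_left (pow_ne_zero k hDK)⟩
      rw [← hsum, Fin.sum_univ_succ, hξz, mul_add, mul_sum]
      simp only [hξt, mul_sum]
      exact congrArg₂ _ (by ring) (sum_congr rfl fun t _ => by ring)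
    refine hWx ξ hξ0 ?_
    have hlk : l ^ k ≤ 1 := pow_le_one₀ hl0.le hl.le
    have hsize : ‖fun w : (K →+* ℂ) × Fin (m + 1) => w.1 (ξ w.2 : K)‖ ≤ Λ ^ k * q := by
      refine (pi_norm_le_iff_of_nonneg (by positivity)).2 fun w => ?_
      obtain ⟨φ, j⟩ := w
      dsimp only
      rw [show Λ ^ k * (q : ℝ) = ((D : ℝ) + 1) ^ k * ((q : ℝ) * (P ^ k * (2 + ‖φ₀ c‖) ^ k)) by
        rw [mul_pow, mul_pow]; ring]
      have hDk : ‖φ ((D : K) ^ k)‖ ≤ ((D : ℝ) + 1) ^ k := by
        rw [map_pow, map_natCast, norm_pow, Complex.norm_natCast]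
        exact pow_le_pow_left₀ (Nat.cast_nonneg D) (le_add_of_nonneg_right zero_le_one) k
      induction j using Fin.cases with
      | zero =>
        rw [hξz, map_mul, norm_mul, map_intCast]
        refine mul_le_mul hDk ?_ (norm_nonneg _) (by positivity)
        have hbk : ‖φ₀ c * φ₀ b ^ k‖ ≤ ‖φ₀ c‖ * P ^ k := by
          rw [norm_mul, norm_pow]
          exact mul_le_mul_of_nonneg_left
            (pow_le_pow_left₀ (norm_nonneg _) (hB' b hb φ₀) k) (norm_nonneg _)
        have h1 := norm_sub_le ((q : ℂ) * (φ₀ c * φ₀ b ^ k))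
          ((q : ℂ) * (φ₀ c * φ₀ b ^ k) - p)
        rw [sub_sub_cancel, norm_mul (q : ℂ), Complex.norm_natCast] at h1
        have h2 : 2 + ‖φ₀ c‖ ≤ (2 + ‖φ₀ c‖) ^ k :=
          le_self_pow₀ (by linarith [norm_nonneg (φ₀ c)]) (by omega)
        have h3 := mul_le_mul_of_nonneg_left h2 (show (0 : ℝ) ≤ P ^ k by positivity)
        have h4 := hqp.lt_one hl0 hl hε
        nlinarith [mul_le_mul_of_nonneg_left h3 (show (0 : ℝ) ≤ q by positivity),
          mul_le_mul_of_nonneg_left hbk (show (0 : ℝ) ≤ q by positivity),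
          mul_le_mul hq1 (one_le_pow₀ (n := k) hP) zero_le_one (by positivity)]
      | succ t =>
        rw [hξt, map_mul, map_mul, norm_mul, norm_mul, map_natCast φ q, Complex.norm_natCast,
          map_pow φ (e t : K), norm_pow, mul_left_comm (q : ℝ) ‖φ ((D : K) ^ k)‖]
        exact mul_le_mul hDk (mul_le_mul_of_nonneg_left
          ((pow_le_pow_left₀ (norm_nonneg _) (hB' _ (e t).2 φ) k).trans
            (le_mul_of_one_le_right (by positivity)
              (one_le_pow₀ (by linarith [norm_nonneg (φ₀ c)])))) (Nat.cast_nonneg q))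
          (by positivity) (by positivity)
    have hH : 0 < ‖fun q : (K →+* ℂ) × Fin (m + 1) => q.1 (ξ q.2 : K)‖ :=
      (norm_nonneg _).lt_of_ne' (norm_ne_zero_iff.2 fun h => hξ0 (funext fun j =>
        RingOfIntegers.coe_eq_zero_iff.1 ((map_eq_zero φ₀).1 (congrFun h (φ₀, j)))))
    obtain ⟨E, hE⟩ : ∃ E : ℝ, E = l ^ k * (q : ℝ) ^ (-ε) := ⟨_, rfl⟩
    have hone : ∀ φ : K →+* ℂ, ∏ i, ‖∑ j, ((R φ).map φ) i j * φ (ξ j : K)‖ ≤
        ‖φ (D : K) ^ k‖ * E * ∏ t, ‖φ (z (e t) : K) ^ k‖ := fun φ => by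
      rw [Fin.prod_univ_succ, show ‖φ (D : K) ^ k‖ * E * ∏ t, ‖φ (z (e t) : K) ^ k‖ =
        ‖φ (D : K) ^ k‖ * (l ^ k * (q : ℝ) ^ (-((B.card : ℝ) + ε))) *
          ∏ t, ((q : ℝ) * ‖φ (z (e t) : K) ^ k‖) by
        rw [prod_mul_distrib, prod_const, card_univ, Fintype.card_fin,
          show (q : ℝ) ^ (-((B.card : ℝ) + ε)) = (q : ℝ) ^ (-ε) / (q : ℝ) ^ m by
            rw [show -((B.card : ℝ) + ε) = -ε - (m : ℝ) by simp only [m]; ring,
              Real.rpow_sub_natCast (by positivity)]]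
        rw [hE]
        field_simp]
      refine mul_le_mul ?_ (le_of_eq (prod_congr rfl fun t _ => ?_))
        (prod_nonneg fun _ _ => norm_nonneg _) (by positivity)
      · have hx : xφ φ ∈ B := hstab _ b hb
        rw [show ∑ j, ((R φ).map φ) 0 j * φ (ξ j : K) =
          φ ((ξ 0 : K) - (g φ).symm c * ((q : K) * ((D : K) ^ k * xφ φ ^ k))) by
          simp only [Matrix.map_apply, R, Matrix.of_apply, if_true, ← map_mul, ← map_sum, row,
            Fin.sum_univ_succ, Fin.cons_zero, Fin.cons_succ, hξt, one_mul]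
          rw [sum_eq_single (e.symm ⟨_, hx⟩) (fun t _ ht => by
            rw [if_neg fun h => ht (e.injective (Subtype.ext (by simpa using h))), zero_mul])
            (fun h => absurd (mem_univ _) h), if_pos (by simp)]
          simp only [Equiv.apply_symm_apply]
          rw [neg_mul, ← sub_eq_add_neg]]
        rw [hξz, show (D : K) ^ k * p - (g φ).symm c * ((q : K) * ((D : K) ^ k * xφ φ ^ k)) =
          (D : K) ^ k * (p - (q : K) * ((g φ).symm c * xφ φ ^ k)) by ring, map_mul, norm_mul,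
          map_pow, norm_pow]
        refine mul_le_mul_of_nonneg_left ?_ (by positivity)
        rw [hg φ, map_sub, map_intCast, map_mul, map_natCast, map_mul, map_pow]
        simp only [xφ, AlgEquiv.apply_symm_apply]
        rw [map_sub, map_intCast, map_mul, map_natCast, map_mul, map_pow, norm_sub_rev]
        exact hp.le
      · simp only [Matrix.map_apply, R, Matrix.of_apply, Fin.succ_ne_zero, if_false]
        rw [sum_eq_single t.succ (fun j _ hj => by rw [if_neg hj.symm, map_zero, zero_mul])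
          (fun h => absurd (mem_univ _) h), if_pos rfl, map_one, one_mul]
        simp only [ξ, Fin.cons_succ, map_mul, map_natCast, map_pow, norm_mul, Complex.norm_natCast]
    have hfin : ∀ v : HeightOneSpectrum (𝓞 K),
        ∏ i, HeightOneSpectrum.adicAbv K v
          (∑ j, (1 : Matrix (Fin (m + 1)) (Fin (m + 1)) K) i j * (ξ j : K)) ≤
        HeightOneSpectrum.adicAbv K v (D : K) ^ k *
          ∏ t, HeightOneSpectrum.adicAbv K v (z (e t) : K) ^ k := fun v => by
      simp only [Matrix.one_apply, ite_mul, one_mul, zero_mul, sum_ite_eq, mem_univ, if_true]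
      rw [Fin.prod_univ_succ, hξz, map_mul, map_pow]
      refine mul_le_mul (mul_le_of_le_one_right (by positivity) ?_)
        (prod_le_prod (fun _ _ => AbsoluteValue.nonneg _ _) fun t _ => by
          simp only [ξ, Fin.cons_succ, map_mul, map_natCast, map_pow]
          exact mul_le_of_le_one_left (by positivity)
            (HeightOneSpectrum.adicAbv_natCast_le_one _ _ _))
        (prod_nonneg fun _ _ => AbsoluteValue.nonneg _ _) (by positivity)
      rw [← map_intCast (algebraMap (𝓞 K) K), ← FinitePlace.norm_embedding]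
      exact FinitePlace.norm_le_one K v _
    have hunit : ∀ y : Option B, (∏ φ : K →+* ℂ, ‖φ (gen y : K) ^ k‖) *
        ∏ v ∈ S, HeightOneSpectrum.adicAbv K v (gen y : K) ^ k = 1 := fun y => by
      simp only [norm_pow]
      rw [prod_pow, prod_pow, ← mul_pow]
      refine pow_eq_one_iff_of_nonneg ?_ (by omega) |>.2 ?_
      · exact mul_nonneg (prod_nonneg fun _ _ => norm_nonneg _)
          (prod_nonneg fun _ _ => AbsoluteValue.nonneg _ _)
      · refine prod_abv_unit (x := Units.mk0 _ ?_) (mem_unit_iff.2 fun v hv => hS y v hv)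
        cases y with
        | none => simpa [gen] using hDK
        | some x => exact RingOfIntegers.coe_ne_zero_iff.2 (hz0 _ x.2)
    calc (∏ φ : K →+* ℂ, ∏ i, ‖∑ j, ((R φ).map φ) i j * φ (ξ j : K)‖) *
          ∏ v ∈ S, ∏ i, HeightOneSpectrum.adicAbv K v
            (∑ j, (1 : Matrix (Fin (m + 1)) (Fin (m + 1)) K) i j * (ξ j : K))
        ≤ (∏ φ : K →+* ℂ, ‖φ (D : K) ^ k‖ * E * ∏ t, ‖φ (z (e t) : K) ^ k‖) *
          ∏ v ∈ S, HeightOneSpectrum.adicAbv K v (D : K) ^ k *
            ∏ t, HeightOneSpectrum.adicAbv K v (z (e t) : K) ^ k :=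
          mul_le_mul (prod_le_prod (fun _ _ => prod_nonneg fun _ _ => norm_nonneg _)
            fun φ _ => hone φ) (prod_le_prod (fun _ _ => prod_nonneg fun _ _ =>
              AbsoluteValue.nonneg _ _) fun v _ => hfin v)
            (prod_nonneg fun _ _ => prod_nonneg fun _ _ => AbsoluteValue.nonneg _ _)
            (prod_nonneg fun _ _ => mul_nonneg (mul_nonneg (norm_nonneg _) (hE ▸ by positivity))
              (prod_nonneg fun _ _ => norm_nonneg _))
      _ = E ^ Fintype.card (K →+* ℂ) := by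
          have h1 := hunit none
          simp only [gen, Option.elim_none, map_natCast] at h1
          simp only [map_natCast]
          rw [prod_mul_distrib, prod_mul_distrib, prod_mul_distrib, Finset.prod_comm,
            Finset.prod_comm (s := S), prod_const E, card_univ]
          rw [show ∀ A B C E F : ℝ, A * B * C * (E * F) = A * E * B * (C * F) from
            fun A B C E F => by ring, ← prod_mul_distrib, prod_eq_one (f := fun t : Fin m =>
              (∏ φ : K →+* ℂ, ‖φ (z (e t) : K) ^ k‖) *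
                ∏ v ∈ S, HeightOneSpectrum.adicAbv K v (z (e t) : K) ^ k)
              fun t _ => hunit (some (e t)),
            mul_one, h1, one_mul]
      _ ≤ E := pow_le_of_le_one (hE ▸ by positivity) (hE ▸ mul_le_one₀ hlk (by positivity)
          (Real.rpow_le_one_of_one_le_of_nonpos hq1 (by linarith))) Fintype.card_ne_zero
      _ < Real.exp (Real.log l * k / 2 - ε / 2 * Real.log q) := by
          rw [hE]
          rw [← Real.exp_log hl0, ← Real.exp_nat_mul, Real.log_exp,
            Real.rpow_def_of_pos (by positivity), ← Real.exp_add, Real.exp_lt_exp]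
          nlinarith [Nat.one_le_cast (α := ℝ) |>.2 hk, Real.log_nonneg hq1]
      _ ≤ _ := by
          unfold house
          rw [Real.rpow_def_of_pos hH]
          refine Real.exp_le_exp.2 ?_
          have h1 := Real.log_le_log hH hsize
          rw [Real.log_mul (by positivity) (by positivity), Real.log_pow] at h1
          have h2 : δ * ((k : ℝ) * Real.log Λ) ≤ -(Real.log l * k / 2) := by
            refine (mul_le_mul_of_nonneg_right (min_le_left _ _) (by positivity)).trans_eq ?_
            field_simp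
          nlinarith [mul_le_mul_of_nonneg_left h1 hδ.le,
            mul_le_mul_of_nonneg_right (min_le_right (-Real.log l / (2 * Real.log Λ)) (ε / 2))
              (Real.log_nonneg hq1)]
  -- one relation for infinitely many exponents
  set T : (Fin (m + 1) → K) → Set ℕ := fun β => {k | ∃ q p, Approx B φ₀ c b l ε k q p ∧
    Q k q p ∧ β 0 * (p : K) + (q : K) * ∑ t, β t.succ * (e t : K) ^ k = 0}
  obtain ⟨β, hβ, hβinf⟩ : ∃ β ∈ W, (T β).Infinite := by
    by_contra! h
    refine (hinf.sdiff (Set.finite_singleton 0)) ((W.finite_toSet.biUnion (t := T)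
      fun β hβ => h β hβ).subset ?_)
    rintro k ⟨⟨q, p, hqp, hQ⟩, hk⟩
    obtain ⟨β, hβ, h0⟩ := key k (Nat.one_le_iff_ne_zero.2 hk) q p hqp
    exact Set.mem_biUnion hβ ⟨q, p, hqp, hQ, h0⟩
  set coef : K → K := fun x => if h : x ∈ B then β (e.symm ⟨x, h⟩).succ else 0
  have hcoef : ∀ k : ℕ, ∑ t, β t.succ * (e t : K) ^ k = ∑ x ∈ B, coef x * x ^ k := fun k => by
    rw [← sum_coe_sort B, ← Equiv.sum_comp e]
    exact sum_congr rfl fun t _ => by simp [coef]
  have hβ0 : β 0 ≠ 0 := fun h0 => by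
    refine hW β hβ (funext fun j => ?_)
    have hall : ∀ x ∈ B, coef x = 0 := fun x hx => coeff_eq_zero hB coef (hβinf.mono (by
      rintro k ⟨q, p, hqp, -, h⟩
      rw [h0, zero_mul, zero_add, hcoef] at h
      exact (mul_eq_zero.1 h).resolve_left (Nat.cast_ne_zero.2 hqp.1.ne'))) hx
    induction j using Fin.cases with
    | zero => exact h0
    | succ t => simpa [coef] using hall _ (e t).2
  refine ⟨fun x => -(coef x / β 0), hβinf.mono ?_⟩
  rintro k ⟨q, p, hqp, hQ, h⟩
  refine ⟨q, p, hqp, hQ, ?_⟩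
  rw [hcoef, add_eq_zero_iff_eq_neg] at h
  simp only [neg_mul, sum_neg_distrib, div_mul_eq_mul_div, ← sum_div]
  rw [mul_neg, ← mul_div_assoc, ← neg_div, ← h, mul_div_cancel_left₀ _ hβ0]

end FA.CorvajaZannier

end
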